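import Fermat.Agent.Jordan.Eilenberg

/-!
# Arcs and loops

Arcs and loops as subsets of the plane, and the degree of a nonvanishing function on a loop cut
into two arcs.
-/

set_option autoImplicit false

noncomputable section

namespace FA.Jordan

open Set Complex Filter Topology Metric

/-- An arc from `u` to `v`. -/
def IsArc (X : Set ℂ) (u v : ℂ) : Prop :=
  ∃ γ : ℝ → ℂ, ContinuousOn γ (Icc 0 1) ∧ InjOn γ (Icc 0 1) ∧ γ 0 = u ∧ γ 1 = v ∧
    γ '' Icc 0 1 = X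

/-- A simple closed curve. -/
def IsLoop (K : Set ℂ) : Prop :=
  ∃ γ : ℝ → ℂ, ContinuousOn γ (Icc 0 1) ∧ InjOn γ (Ico 0 1) ∧ γ 0 = γ 1 ∧ γ '' Icc 0 1 = K

/-- A loop cut into two arcs. -/
structure Split (K : Set ℂ) where
  /-- First arc. -/
  A : Set ℂ
  /-- Second arc. -/
  B : Set ℂ
  /-- First common end. -/
  p : ℂ
  /-- Second common end. -/
  q : ℂ
  isArcA : IsArc A p q
  isArcB : IsArc B p q
  union_eq : A ∪ B = K
  inter_eq : A ∩ B = {p, q}

lemma isArc_of_param {γ : ℝ → ℂ} {a b : ℝ} (hab : a < b) (hc : ContinuousOn γ (Icc a b))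
    (hi : InjOn γ (Icc a b)) : IsArc (γ '' Icc a b) (γ a) (γ b) := by
  have himg : (fun t : ℝ => a + (b - a) * t) '' Icc 0 1 = Icc a b := by
    rw [show (fun t : ℝ => a + (b - a) * t) = (fun t : ℝ => a + t) ∘ fun t => (b - a) * t from rfl,
      image_comp, image_mul_left_Icc (by linarith) zero_le_one, image_const_add_Icc]
    simp
  have hmap : MapsTo (fun t : ℝ => a + (b - a) * t) (Icc 0 1) (Icc a b) := fun t ht =>
    himg ▸ mem_image_of_mem _ ht
  refine ⟨fun t => γ (a + (b - a) * t), hc.comp (by fun_prop) hmap, fun s hs t ht hst => ?_,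
    by simp, by simp, ?_⟩
  · have := hi (hmap hs) (hmap ht) hst
    exact mul_left_cancel₀ (sub_ne_zero.2 hab.ne') (add_left_cancel this)
  · rw [show (fun t => γ (a + (b - a) * t)) = γ ∘ fun t => a + (b - a) * t from rfl, image_comp,
      himg]

namespace IsArc

variable {X Y : Set ℂ} {u v w : ℂ}

lemma left_mem (h : IsArc X u v) : u ∈ X := by
  obtain ⟨γ, -, -, rfl, -, rfl⟩ := h
  exact mem_image_of_mem γ (left_mem_Icc.2 zero_le_one)

lemma right_mem (h : IsArc X u v) : v ∈ X := by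
  obtain ⟨γ, -, -, -, rfl, rfl⟩ := h
  exact mem_image_of_mem γ (right_mem_Icc.2 zero_le_one)

lemma ne (h : IsArc X u v) : u ≠ v := by
  obtain ⟨γ, -, hi, rfl, rfl, -⟩ := h
  exact fun e => zero_ne_one (hi (left_mem_Icc.2 zero_le_one) (right_mem_Icc.2 zero_le_one) e)

lemma isCompact (h : IsArc X u v) : IsCompact X := by
  obtain ⟨γ, hc, -, -, -, rfl⟩ := h
  exact isCompact_Icc.image_of_continuousOn hc

lemma isPreconnected (h : IsArc X u v) : IsPreconnected X := by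
  obtain ⟨γ, hc, -, -, -, rfl⟩ := h
  exact isPreconnected_Icc.image _ hc

lemma symm (h : IsArc X u v) : IsArc X v u := by
  obtain ⟨γ, hc, hi, rfl, rfl, rfl⟩ := h
  have himg : (fun t : ℝ => 1 - t) '' Icc 0 1 = Icc 0 1 := by simp
  have hmap : MapsTo (fun t : ℝ => 1 - t) (Icc 0 1) (Icc 0 1) := fun t ht =>
    himg.subset (mem_image_of_mem _ ht)
  refine ⟨fun t => γ (1 - t), hc.comp (by fun_prop) hmap, fun s hs t ht hst => ?_, by simp,
    by simp, ?_⟩
  · have := hi (hmap hs) (hmap ht) hst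
    linarith
  · rw [show (fun t => γ (1 - t)) = γ ∘ fun t => 1 - t from rfl, image_comp, himg]

/-- Arcs meeting in one common end can be joined. -/
lemma trans (h : IsArc X u v) (h' : IsArc Y v w) (hXY : X ∩ Y = {v}) : IsArc (X ∪ Y) u w := by
  obtain ⟨f, hf, hfi, rfl, hfv, rfl⟩ := h
  obtain ⟨g, hg, hgi, hgv, rfl, rfl⟩ := h'
  let φ : ℝ → ℂ := fun t => if t ≤ 1 then f t else g (t - 1)
  have h1 : EqOn φ f (Icc 0 1) := fun t ht => if_pos ht.2
  have h2 : EqOn φ (fun t => g (t - 1)) (Icc 1 2) := fun t ht => by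
    rcases ht.1.eq_or_lt with h0 | h0
    · subst h0
      simp [φ, hfv, hgv]
    · exact if_neg (not_le.2 h0)
  have hmap : MapsTo (fun t : ℝ => t - 1) (Icc 1 2) (Icc 0 1) := fun t ht =>
    ⟨by linarith [ht.1], by linarith [ht.2]⟩
  have hIcc : Icc (0 : ℝ) 2 = Icc 0 1 ∪ Icc 1 2 :=
    (Icc_union_Icc_eq_Icc zero_le_one one_le_two).symm
  have hc : ContinuousOn φ (Icc 0 2) := by
    rw [hIcc]
    exact (hf.congr h1).union_of_isClosed ((hg.comp (by fun_prop) hmap).congr h2) isClosed_Icc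
      isClosed_Icc
  have hi : InjOn φ (Icc 0 2) := by
    have hcross : ∀ s ∈ Icc (0 : ℝ) 1, ∀ t ∈ Icc (1 : ℝ) 2, φ s = φ t → s = t :=
      fun s hs t ht e => by
      rw [h1 hs, h2 ht] at e
      have hv : f s = v := by
        have : f s ∈ ({v} : Set ℂ) :=
          hXY ▸ ⟨mem_image_of_mem f hs, e ▸ mem_image_of_mem g (hmap ht)⟩
        exact this
      have hs1 : s = 1 := hfi hs (right_mem_Icc.2 zero_le_one) (hv.trans hfv.symm)
      have ht1 : t - 1 = 0 := hgi (hmap ht) (left_mem_Icc.2 zero_le_one)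
        (by rw [hgv, ← hv]; exact e.symm)
      linarith
    intro s hs t ht e
    rw [hIcc] at hs ht
    rcases hs with hs | hs <;> rcases ht with ht | ht
    · exact hfi hs ht (by rw [← h1 hs, ← h1 ht]; exact e)
    · exact hcross s hs t ht e
    · exact (hcross t ht s hs e.symm).symm
    · have := hgi (hmap hs) (hmap ht) (by
        rw [h2 hs, h2 ht] at e
        exact e)
      linarith
  have h := isArc_of_param (by norm_num) hc hi
  have e0 : φ 0 = f 0 := h1 (left_mem_Icc.2 zero_le_one)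
  have e2 : φ 2 = g 1 := by
    rw [h2 (right_mem_Icc.2 one_le_two)]
    norm_num
  have eimg : φ '' Icc 0 2 = f '' Icc 0 1 ∪ g '' Icc 0 1 := by
    rw [hIcc, image_union, image_congr h1, image_congr h2,
      show (fun t => g (t - 1)) = g ∘ fun t => t - 1 from rfl, image_comp, image_sub_const_Icc]
    norm_num
  rwa [e0, e2, eimg] at h

lemma interior_preconnected (h : IsArc X u v) : _root_.IsPreconnected (X \ {u, v}) := by
  obtain ⟨γ, hc, hi, rfl, rfl, rfl⟩ := h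
  have : γ '' Icc 0 1 \ {γ 0, γ 1} = γ '' Ioo 0 1 := by
    ext z
    simp only [Set.mem_sdiff, mem_insert_iff, mem_singleton_iff, mem_image, not_or]
    constructor
    · rintro ⟨⟨t, ht, rfl⟩, h0, h1⟩
      refine ⟨t, ⟨ht.1.lt_of_ne ?_, ht.2.lt_of_ne ?_⟩, rfl⟩
      · rintro rfl; exact h0 rfl
      · rintro rfl; exact h1 rfl
    · rintro ⟨t, ht, rfl⟩
      refine ⟨⟨t, Ioo_subset_Icc_self ht, rfl⟩, fun e => ?_, fun e => ?_⟩
      · exact ht.1.ne' (hi (Ioo_subset_Icc_self ht) (left_mem_Icc.2 zero_le_one) e)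
      · exact ht.2.ne (hi (Ioo_subset_Icc_self ht) (right_mem_Icc.2 zero_le_one) e)
  rw [this]
  exact isPreconnected_Ioo.image _ (hc.mono Ioo_subset_Icc_self)

lemma interior_nonempty (h : IsArc X u v) : (X \ {u, v}).Nonempty := by
  obtain ⟨γ, hc, hi, rfl, rfl, rfl⟩ := h
  have h2 : (1 / 2 : ℝ) ∈ Icc (0 : ℝ) 1 := ⟨by norm_num, by norm_num⟩
  refine ⟨γ (1 / 2), mem_image_of_mem γ h2, ?_⟩
  rintro (e | e)
  · have := hi h2 (left_mem_Icc.2 zero_le_one) e; norm_num at this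
  · have := hi h2 (right_mem_Icc.2 zero_le_one) e; norm_num at this

/-- Every nonvanishing function on an arc has a logarithm. -/
lemma hasLog (h : IsArc X u v) {f : ℂ → ℂ} (hf : ContinuousOn f X) (h0 : ∀ z ∈ X, f z ≠ 0) :
    HasLog X f := by
  obtain ⟨γ, hc, hi, -, -, rfl⟩ := h
  obtain ⟨L, hL, hLe⟩ := exists_log_Icc zero_le_one (hf.comp hc (mapsTo_image _ _))
    fun t ht => h0 _ (mem_image_of_mem γ ht)
  let τ := Function.invFunOn γ (Icc 0 1)
  have hτ : ∀ t ∈ Icc (0 : ℝ) 1, τ (γ t) = t := fun t ht =>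
    hi (Function.invFunOn_mem ⟨t, ht, rfl⟩) ht (Function.invFunOn_eq ⟨t, ht, rfl⟩)
  have hτc : ContinuousOn τ (γ '' Icc 0 1) := by
    refine continuousOn_iff_isClosed.2 fun C hC =>
      ⟨γ '' (Icc 0 1 ∩ C), ((isCompact_Icc.inter_right hC).image_of_continuousOn
        (hc.mono inter_subset_left)).isClosed, ?_⟩
    ext z
    constructor
    · rintro ⟨hzC, t, ht, rfl⟩
      exact ⟨⟨t, ⟨ht, by simpa [hτ t ht] using hzC⟩, rfl⟩, t, ht, rfl⟩
    · rintro ⟨⟨t, ⟨ht, htC⟩, rfl⟩, hz⟩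
      exact ⟨by simpa [hτ t ht] using htC, hz⟩
  refine ⟨L ∘ τ, hL.comp hτc ?_, ?_⟩
  · rintro _ ⟨t, ht, rfl⟩
    rw [hτ t ht]
    exact ht
  · rintro _ ⟨t, ht, rfl⟩
    rw [Function.comp_apply, hτ t ht]
    exact hLe t ht

/-- An arc does not separate the plane. -/
lemma isPreconnected_compl (h : IsArc X u v) : _root_.IsPreconnected Xᶜ :=
  isPreconnected_compl_of_log h.isCompact fun _ hf h0 => h.hasLog hf h0

lemma isConnected_compl (h : IsArc X u v) : _root_.IsConnected Xᶜ := by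
  refine ⟨?_, h.isPreconnected_compl⟩
  obtain ⟨C, hC⟩ := h.isCompact.exists_bound_of_continuousOn (f := id) continuousOn_id
  refine ⟨((|C| + 1 : ℝ) : ℂ), fun hz => ?_⟩
  have h1 : ‖((|C| + 1 : ℝ) : ℂ)‖ ≤ C := hC _ hz
  rw [norm_real, Real.norm_eq_abs, abs_of_pos (by positivity)] at h1
  linarith [le_abs_self C]

end IsArc

namespace IsLoop

variable {K : Set ℂ}

lemma isCompact (h : IsLoop K) : IsCompact K := by
  obtain ⟨γ, hc, -, -, rfl⟩ := h
  exact isCompact_Icc.image_of_continuousOn hc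

lemma isPreconnected (h : IsLoop K) : IsPreconnected K := by
  obtain ⟨γ, hc, -, -, rfl⟩ := h
  exact isPreconnected_Icc.image _ hc

/-- A loop can start at any of its points. -/
lemma exists_param (h : IsLoop K) {z : ℂ} (hz : z ∈ K) :
    ∃ γ : ℝ → ℂ, ContinuousOn γ (Icc 0 1) ∧ InjOn γ (Ico 0 1) ∧ γ 0 = z ∧ γ 1 = z ∧
      γ '' Icc 0 1 = K := by
  obtain ⟨γ, hc, hi, h01, rfl⟩ := h
  obtain ⟨s, hs, rfl⟩ : ∃ s ∈ Ico (0 : ℝ) 1, γ s = z := by
    obtain ⟨s, hs, rfl⟩ := hz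
    rcases hs.2.eq_or_lt with rfl | h1
    · exact ⟨0, ⟨le_rfl, one_pos⟩, h01⟩
    · exact ⟨s, ⟨hs.1, h1⟩, rfl⟩
  let φ : ℝ → ℂ := fun t => if t ≤ 1 - s then γ (t + s) else γ (t + s - 1)
  have h1 : EqOn φ (fun t => γ (t + s)) (Icc 0 (1 - s)) := fun t ht => if_pos ht.2
  have h2 : EqOn φ (fun t => γ (t + s - 1)) (Icc (1 - s) 1) := fun t ht => by
    rcases ht.1.eq_or_lt with h0 | h0
    · subst h0
      simp [φ, h01]
    · exact if_neg (not_le.2 h0)
  have hm1 : MapsTo (fun t : ℝ => t + s) (Icc 0 (1 - s)) (Icc 0 1) := fun t ht =>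
    ⟨by linarith [ht.1, hs.1], by linarith [ht.2]⟩
  have hm2 : MapsTo (fun t : ℝ => t + s - 1) (Icc (1 - s) 1) (Icc 0 1) := fun t ht =>
    ⟨by linarith [ht.1], by linarith [ht.2, hs.2]⟩
  have hIcc : Icc (0 : ℝ) 1 = Icc 0 (1 - s) ∪ Icc (1 - s) 1 :=
    (Icc_union_Icc_eq_Icc (by linarith [hs.2]) (by linarith [hs.1])).symm
  refine ⟨φ, ?_, ?_, ?_, ?_, ?_⟩
  · rw [hIcc]
    exact ((hc.comp (by fun_prop) hm1).congr h1).union_of_isClosed
      ((hc.comp (by fun_prop) hm2).congr h2) isClosed_Icc isClosed_Icc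
  · intro a ha b hb e
    simp only [φ] at e
    split_ifs at e with ca cb cb
    · rcases eq_or_lt_of_le ca with ca' | ca' <;> rcases eq_or_lt_of_le cb with cb' | cb'
      · linarith
      · rw [ca', sub_add_cancel, ← h01] at e
        have := hi ⟨le_rfl, one_pos⟩ ⟨by linarith [hb.1, hs.1], by linarith⟩ e
        have hs0 : s = 0 := by linarith [hb.1, hs.1]
        linarith [ha.2]
      · rw [cb', sub_add_cancel, ← h01] at e
        have := hi ⟨by linarith [ha.1, hs.1], by linarith⟩ ⟨le_rfl, one_pos⟩ e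
        have hs0 : s = 0 := by linarith [ha.1, hs.1]
        linarith [hb.2]
      · have := hi ⟨by linarith [ha.1, hs.1], by linarith⟩ ⟨by linarith [hb.1, hs.1], by linarith⟩ e
        linarith
    · rcases eq_or_lt_of_le ca with ca' | ca'
      · rw [ca', sub_add_cancel, ← h01] at e
        have := hi ⟨le_rfl, one_pos⟩ ⟨by linarith, by linarith [hb.2, hs.2]⟩ e
        linarith
      · have := hi ⟨by linarith [ha.1, hs.1], by linarith⟩ ⟨by linarith, by linarith [hb.2, hs.2]⟩ e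
        linarith [ha.1, hb.2]
    · rcases eq_or_lt_of_le cb with cb' | cb'
      · rw [cb', sub_add_cancel, ← h01] at e
        have := hi ⟨by linarith, by linarith [ha.2, hs.2]⟩ ⟨le_rfl, one_pos⟩ e
        linarith
      · have := hi ⟨by linarith, by linarith [ha.2, hs.2]⟩ ⟨by linarith [hb.1, hs.1], by linarith⟩ e
        linarith [hb.1, ha.2]
    · have := hi ⟨by linarith, by linarith [ha.2, hs.2]⟩ ⟨by linarith, by linarith [hb.2, hs.2]⟩ e
      linarith
  · rw [h1 ⟨le_rfl, by linarith [hs.2]⟩]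
    simp
  · rw [h2 ⟨by linarith [hs.1], le_rfl⟩]
    simp
  · rw [hIcc, image_union, image_congr h1, image_congr h2,
      show (fun t => γ (t + s)) = γ ∘ fun t => t + s from rfl, image_comp, image_add_const_Icc,
      show (fun t => γ (t + s - 1)) = γ ∘ fun t => t + (s - 1) from funext fun t => by
        simp [add_sub_assoc], image_comp, image_add_const_Icc, ← hIcc, ← image_union]
    congr 1
    rw [show (0 : ℝ) + s = s by ring, show (1 : ℝ) - s + s = 1 by ring,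
      show (1 : ℝ) - s + (s - 1) = 0 by ring, show (1 : ℝ) + (s - 1) = s by ring, union_comm,
      Icc_union_Icc_eq_Icc hs.1 hs.2.le]

/-- A loop can be cut at any two of its points. -/
lemma exists_split (h : IsLoop K) {z w : ℂ} (hz : z ∈ K) (hw : w ∈ K) (hne : z ≠ w) :
    ∃ S : Split K, S.p = z ∧ S.q = w := by
  obtain ⟨γ, hc, hi, h0, h1, rfl⟩ := h.exists_param hz
  obtain ⟨t, ht, rfl⟩ := hw
  have ht0 : 0 < t := ht.1.lt_of_ne fun e => hne (by rw [← e, h0])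
  have ht1 : t < 1 := ht.2.lt_of_ne fun e => hne (by rw [e, h1])
  have hinj1 : InjOn γ (Icc 0 t) := hi.mono fun x (hx : x ∈ Icc 0 t) => show x ∈ Ico (0 : ℝ) 1 from ⟨hx.1, hx.2.trans_lt ht1⟩
  have hinj2 : InjOn γ (Icc t 1) := fun a ha b hb e => by
    rcases ha.2.eq_or_lt with rfl | ha1 <;> rcases hb.2.eq_or_lt with rfl | hb1
    · rfl
    · have := hi ⟨le_rfl, one_pos⟩ ⟨ht0.le.trans hb.1, hb1⟩ (h0.trans (h1.symm.trans e))
      linarith [hb.1]
    · have := hi ⟨ht0.le.trans ha.1, ha1⟩ ⟨le_rfl, one_pos⟩ (e.trans (h1.trans h0.symm))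
      linarith [ha.1]
    · exact hi ⟨ht0.le.trans ha.1, ha1⟩ ⟨ht0.le.trans hb.1, hb1⟩ e
  have hA := isArc_of_param ht0 (hc.mono (Icc_subset_Icc le_rfl ht1.le)) hinj1
  have hB := (isArc_of_param ht1 (hc.mono (Icc_subset_Icc ht0.le le_rfl)) hinj2).symm
  rw [h0] at hA
  rw [h1] at hB
  refine ⟨⟨_, _, _, _, hA, hB, ?_, ?_⟩, rfl, rfl⟩
  · rw [← image_union, Icc_union_Icc_eq_Icc ht0.le ht1.le]
  · refine Subset.antisymm ?_ ?_
    · rintro _ ⟨⟨a, ha, rfl⟩, b, hb, e⟩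
      rcases hb.2.eq_or_lt with rfl | hb1
      · exact Or.inl (e.symm.trans h1)
      · have hba := hi ⟨ht0.le.trans hb.1, hb1⟩ ⟨ha.1, ha.2.trans_lt ht1⟩ e
        exact Or.inr (congrArg γ (le_antisymm ha.2 (hba ▸ hb.1)))
    · rintro _ (rfl | rfl)
      · exact ⟨⟨0, left_mem_Icc.2 ht0.le, h0⟩, 1, right_mem_Icc.2 ht1.le, h1⟩
      · exact ⟨mem_image_of_mem γ (right_mem_Icc.2 ht0.le),
          mem_image_of_mem γ (left_mem_Icc.2 ht1.le)⟩

/-- A closed proper subset lies in an arc inside the loop. -/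
lemma exists_arc_superset (h : IsLoop K) {F : Set ℂ} (hF : IsClosed F) (hFK : F ⊆ K) {z : ℂ}
    (hz : z ∈ K) (hzF : z ∉ F) : ∃ X u v, IsArc X u v ∧ F ⊆ X ∧ X ⊆ K ∧ z ∉ X := by
  obtain ⟨γ, hc, hi, h0, h1, rfl⟩ := h.exists_param hz
  have hT : IsCompact (Icc (0 : ℝ) 1 ∩ γ ⁻¹' F) :=
    isCompact_Icc.of_isClosed_subset (hc.preimage_isClosed_of_isClosed isClosed_Icc hF)
      inter_subset_left
  obtain ⟨a, b, ha, hab, hb, hsub⟩ : ∃ a b : ℝ, 0 < a ∧ a < b ∧ b < 1 ∧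
      Icc 0 1 ∩ γ ⁻¹' F ⊆ Icc a b := by
    rcases (Icc (0 : ℝ) 1 ∩ γ ⁻¹' F).eq_empty_or_nonempty with he | hne
    · exact ⟨1 / 4, 1 / 2, by norm_num, by norm_num, by norm_num, by simp [he]⟩
    obtain ⟨m, hm, hm'⟩ := hT.exists_isLeast hne
    obtain ⟨M, hM, hM'⟩ := hT.exists_isGreatest hne
    have hm0 : 0 < m := hm.1.1.lt_of_ne fun e => hzF (by
      have := hm.2
      rwa [mem_preimage, ← e, h0] at this)
    have hM1 : M < 1 := hM.1.2.lt_of_ne fun e => hzF (by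
      have := hM.2
      rwa [mem_preimage, e, h1] at this)
    have hmM : m ≤ M := hm' hM
    exact ⟨m / 2, (M + 1) / 2, by linarith, by linarith [hm.1.1], by linarith, fun x hx =>
      ⟨by linarith [hm' hx], by linarith [hM' hx]⟩⟩
  have hsubI : Icc a b ⊆ Icc 0 1 := Icc_subset_Icc ha.le hb.le
  refine ⟨_, _, _, isArc_of_param hab (hc.mono hsubI)
    (hi.mono fun x (hx : x ∈ Icc a b) => show x ∈ Ico (0 : ℝ) 1 from
      ⟨ha.le.trans hx.1, hx.2.trans_lt hb⟩), fun w hw => ?_,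
    image_mono hsubI, ?_⟩
  · obtain ⟨x, hx, rfl⟩ := hFK hw
    exact mem_image_of_mem γ (hsub ⟨hx, hw⟩)
  · rintro ⟨x, hx, e⟩
    have := hi ⟨ha.le.trans hx.1, hx.2.trans_lt hb⟩ ⟨le_rfl, one_pos⟩ (e.trans h0.symm)
    linarith [hx.1]

end IsLoop

/-- Two arcs with common ends and nothing else in common form a loop. -/
lemma Split.isLoop {K : Set ℂ} (S : Split K) : IsLoop K := by
  obtain ⟨f, hf, hfi, hfp, hfq, hfA⟩ := S.isArcA
  obtain ⟨g, hg, hgi, hgq, hgp, hgB⟩ := S.isArcB.symm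
  let φ : ℝ → ℂ := fun t => if t ≤ 1 / 2 then f (2 * t) else g (2 * t - 1)
  have h1 : EqOn φ (fun t => f (2 * t)) (Icc 0 (1 / 2)) := fun t ht => if_pos ht.2
  have h2 : EqOn φ (fun t => g (2 * t - 1)) (Icc (1 / 2) 1) := fun t ht => by
    rcases ht.1.eq_or_lt with h0 | h0
    · subst h0
      simp [φ, hfq, hgq]
    · exact if_neg (not_le.2 h0)
  have hm1 : MapsTo (fun t : ℝ => 2 * t) (Icc 0 (1 / 2)) (Icc 0 1) := fun t ht =>
    ⟨by linarith [ht.1], by linarith [ht.2]⟩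
  have hm2 : MapsTo (fun t : ℝ => 2 * t - 1) (Icc (1 / 2) 1) (Icc 0 1) := fun t ht =>
    ⟨by linarith [ht.1], by linarith [ht.2]⟩
  have hIcc : Icc (0 : ℝ) 1 = Icc 0 (1 / 2) ∪ Icc (1 / 2) 1 :=
    (Icc_union_Icc_eq_Icc (by norm_num) (by norm_num)).symm
  have hi1 : (fun t : ℝ => 2 * t) '' Icc 0 (1 / 2) = Icc 0 1 := by
    rw [image_mul_left_Icc (by norm_num) (by norm_num)]
    norm_num
  have hi2 : (fun t : ℝ => 2 * t - 1) '' Icc (1 / 2) 1 = Icc 0 1 := by
    rw [show (fun t : ℝ => 2 * t - 1) = (fun t : ℝ => t - 1) ∘ fun t => 2 * t from rfl, image_comp,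
      image_mul_left_Icc (by norm_num) (by norm_num), image_sub_const_Icc]
    norm_num
  refine ⟨φ, ?_, ?_, ?_, ?_⟩
  · rw [hIcc]
    exact ((hf.comp (by fun_prop) hm1).congr h1).union_of_isClosed
      ((hg.comp (by fun_prop) hm2).congr h2) isClosed_Icc isClosed_Icc
  · have hcross : ∀ s ∈ Icc (0 : ℝ) (1 / 2), ∀ t ∈ Ioo (1 / 2 : ℝ) 1, φ s ≠ φ t :=
      fun s hs t ht e => by
      rw [h1 hs, h2 (Ioo_subset_Icc_self ht)] at e
      have hmem : g (2 * t - 1) ∈ S.A ∩ S.B := ⟨hfA ▸ (show f (2 * s) = g (2 * t - 1) from e) ▸ mem_image_of_mem f (hm1 hs),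
        hgB ▸ mem_image_of_mem g (hm2 (Ioo_subset_Icc_self ht))⟩
      rw [S.inter_eq] at hmem
      rcases hmem with h | h
      · have := hgi (hm2 (Ioo_subset_Icc_self ht)) (right_mem_Icc.2 zero_le_one) (h.trans hgp.symm)
        linarith [ht.2]
      · have := hgi (hm2 (Ioo_subset_Icc_self ht)) (left_mem_Icc.2 zero_le_one) (h.trans hgq.symm)
        linarith [ht.1]
    intro s hs t ht e
    rcases le_or_gt s (1 / 2) with cs | cs <;> rcases le_or_gt t (1 / 2) with ct | ct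
    · rw [h1 ⟨hs.1, cs⟩, h1 ⟨ht.1, ct⟩] at e
      have := hfi (hm1 ⟨hs.1, cs⟩) (hm1 ⟨ht.1, ct⟩) e
      linarith
    · exact absurd e (hcross s ⟨hs.1, cs⟩ t ⟨ct, ht.2⟩)
    · exact absurd e.symm (hcross t ⟨ht.1, ct⟩ s ⟨cs, hs.2⟩)
    · rw [h2 ⟨cs.le, hs.2.le⟩, h2 ⟨ct.le, ht.2.le⟩] at e
      have := hgi (hm2 ⟨cs.le, hs.2.le⟩) (hm2 ⟨ct.le, ht.2.le⟩) e
      linarith
  · rw [h1 ⟨le_rfl, by norm_num⟩, h2 ⟨by norm_num, le_rfl⟩]
    norm_num [hfp, hgp]
  · rw [hIcc, image_union, image_congr h1, image_congr h2,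
      show (fun t => f (2 * t)) = f ∘ fun t => 2 * t from rfl, image_comp, hi1,
      show (fun t => g (2 * t - 1)) = g ∘ fun t => 2 * t - 1 from rfl, image_comp, hi2, hfA, hgB,
      S.union_eq]

end FA.Jordan
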