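import Fermat.Agent.Jordan.Curve
import Mathlib.Analysis.SpecialFunctions.Complex.Circle

/-!
# Loops given by maps of the circle
-/

set_option autoImplicit false

noncomputable section

namespace FA.Jordan

open Set Complex Filter Topology Metric

variable {γ : Circle → ℂ}

lemma isLoop_range (hc : Continuous γ) (hi : Function.Injective γ) : IsLoop (range γ) := by
  refine ⟨fun t => γ (Circle.exp (2 * Real.pi * t)), ?_, ?_, by simp, ?_⟩
  · exact (hc.comp (Circle.exp.continuous.comp (by fun_prop))).continuousOn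
  · intro s hs t ht e
    obtain ⟨m, hm⟩ := Circle.exp_eq_exp.1 (hi e)
    have h1 : s = t + m := by
      have := Real.pi_pos
      field_simp at hm
      linarith
    have h2 : (m : ℝ) < ((1 : ℤ) : ℝ) := by push_cast; linarith [hs.2, ht.1]
    have h3 : ((-1 : ℤ) : ℝ) < (m : ℝ) := by push_cast; linarith [hs.1, ht.2]
    have : m = 0 := by
      have := Int.cast_lt.1 h2
      have := Int.cast_lt.1 h3
      omega
    simp [this] at h1
    exact h1
  · refine Subset.antisymm (image_subset_iff.2 fun t _ => mem_range_self _) ?_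
    rintro _ ⟨w, rfl⟩
    obtain ⟨x, rfl⟩ : ∃ x, Circle.exp x = w := ⟨_, Circle.exp_arg w⟩
    refine ⟨Int.fract (x / (2 * Real.pi)), ⟨Int.fract_nonneg _, (Int.fract_lt_one _).le⟩, ?_⟩
    show γ (Circle.exp _) = _
    congr 1
    refine Circle.exp_eq_exp.2 ⟨-⌊x / (2 * Real.pi)⌋, ?_⟩
    rw [Int.fract]
    field_simp
    push_cast
    ring

/-- The winding number of a loop given on the circle: it is `0` outside and one of `1`, `-1`
inside. -/
theorem exists_winding (hc : Continuous γ) (hi : Function.Injective γ) :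
    ∃ σ : ℤ, (σ = 1 ∨ σ = -1) ∧ ∀ a ∉ range γ,
      (∃ L : ℝ → ℂ, Continuous L ∧ ∀ t, exp (L t) = γ (Circle.exp t) - a) ∧
      ∀ L : ℝ → ℂ, Continuous L → (∀ t, exp (L t) = γ (Circle.exp t) - a) →
        (Bornology.IsBounded (connectedComponentIn (range γ)ᶜ a) →
          L (2 * Real.pi) - L 0 = σ * (2 * Real.pi * I)) ∧
        (¬Bornology.IsBounded (connectedComponentIn (range γ)ᶜ a) →
          L (2 * Real.pi) - L 0 = 0) := by
  set K := range γ with hKdef
  have hK : IsLoop K := isLoop_range hc hi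
  obtain ⟨S, -, -⟩ := hK.exists_extreme_split
  let par : ℝ → ℂ := fun t => γ (Circle.exp t)
  have hpar : Continuous par := hc.comp Circle.exp.continuous
  have hparK : ∀ t, par t ∈ K := fun t => mem_range_self _
  have hper : par (2 * Real.pi) = par 0 := by simp [par]
  -- increments are determined by a logarithm on the curve
  have hzero : ∀ f, HasLog K f → ∀ L : ℝ → ℂ, Continuous L → (∀ t, exp (L t) = f (par t)) →
      L (2 * Real.pi) - L 0 = 0 := fun f ⟨g, hg, hge⟩ L hL hLe => by
    rw [log_sub_eq (S := (univ : Set ℝ)) isPreconnected_univ hL.continuousOn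
      (g' := fun t => g (par t)) (hg.comp_continuous hpar hparK).continuousOn
      (fun t _ => (hLe t).trans (hge _ (hparK t)).symm) (mem_univ _) (mem_univ _), hper, sub_self]
  obtain ⟨h, hh, hh1⟩ := S.exists_deg_one
  obtain ⟨H, hH, hHe⟩ := exists_log (fun t => h (par t)) (hh.1.comp_continuous hpar hparK)
    fun t => hh.2 _ (hparK t)
  have hlin : ∀ f, NonVan K f → ∀ L : ℝ → ℂ, Continuous L → (∀ t, exp (L t) = f (par t)) →
      L (2 * Real.pi) - L 0 = S.deg f * (H (2 * Real.pi) - H 0) := fun f hf L hL hLe => by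
    have h0 : S.deg (fun z => f z * h z ^ (-S.deg f)) = 0 := by
      rw [S.deg_mul hf (hh.zpow _), S.deg_zpow hh, hh1]
      ring
    have := hzero _ ((S.deg_eq_zero_iff (hf.mul (hh.zpow _))).1 h0)
      (fun t => L t + ((-S.deg f : ℤ) : ℂ) * H t) (hL.add (continuous_const.mul hH))
      fun t => by rw [exp_add, hLe, exp_int_mul, hHe]
    push_cast at this
    linear_combination this
  -- the inverse parametrisation has increment one
  let e : Circle ≃ₜ K := hc.isClosedEmbedding hi |>.isEmbedding.toHomeomorph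
  classical
  let f₁ : ℂ → ℂ := fun z => if hz : z ∈ K then ((e.symm ⟨z, hz⟩ : Circle) : ℂ) else 1
  have hf₁ : NonVan K f₁ := by
    refine ⟨continuousOn_iff_continuous_restrict.2 ?_, fun z hz => by simp [f₁, hz, Circle.coe_ne_zero]⟩
    have : K.domRestrict f₁ = fun z => ((e.symm z : Circle) : ℂ) := funext fun z => by simp [f₁]
    rw [this]
    exact continuous_subtype_val.comp e.symm.continuous
  have h₁ := hlin f₁ hf₁ (fun t => (t : ℂ) * I) (by fun_prop) fun t => by
    have : (⟨par t, hparK t⟩ : K) = e (Circle.exp t) := Subtype.ext rfl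
    simp only [f₁, hparK t, dif_pos, this, e.symm_apply_apply, Circle.coe_exp]
  have hHint : ∃ n : ℤ, H (2 * Real.pi) - H 0 = n * (2 * Real.pi * I) := by
    refine exp_eq_one_iff.1 ?_
    rw [exp_sub, hHe, hHe, hper, div_self (hh.2 _ (hparK 0))]
  obtain ⟨n, hn⟩ := hHint
  have hunit : n = 1 ∨ n = -1 := by
    refine Int.eq_one_or_neg_one_of_mul_eq_one (v := S.deg f₁) ?_
    have h2 : (((n * S.deg f₁ : ℤ) : ℂ)) * (2 * Real.pi * I) = ((1 : ℤ) : ℂ) * (2 * Real.pi * I) := by
      push_cast
      rw [hn] at h₁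
      push_cast at h₁
      linear_combination -h₁
    exact_mod_cast mul_right_cancel₀ two_pi_I_ne_zero h2
  -- assemble
  obtain ⟨a₀, ha₀, hba₀⟩ := hK.exists_bounded
  refine ⟨S.wind a₀ * n, ?_, fun a ha => ⟨exists_log _ (hpar.sub continuous_const) fun t =>
    sub_ne_zero_of_notMem ha (hparK t), fun L hL hLe => ⟨fun hb => ?_, fun hb => ?_⟩⟩⟩
  · rcases hK.wind_eq_one_or_neg_one S ha₀ hba₀ with h | h <;> rcases hunit with h' | h' <;>
      simp [h, h']
  · rw [hlin (fun z => z - a) (nonVan_sub ha) L hL hLe, hn,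
      show S.deg (fun z => z - a) = S.wind a₀ from
        S.wind_eq_of_comp ha ha₀ (hK.bounded_comp_eq ha ha₀ hb hba₀)]
    push_cast
    ring
  · rw [hlin (fun z => z - a) (nonVan_sub ha) L hL hLe,
      show S.deg (fun z => z - a) = 0 from (S.wind_eq_zero_iff ha).2 hb]
    simp

end FA.Jordan
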