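import Fermat.Agent.Jordan.Degree
import Mathlib.Data.ZMod.Basic

/-!
# The Jordan curve theorem

On a vertical line between the leftmost and the rightmost point of a loop, the increments of the
argument along the two arcs joining these points are locally constant off the respective arc; were
the winding numbers all divisible by `N`, they would glue modulo `N`, although they change by one
from one end of the line to the other.
-/

set_option autoImplicit false

noncomputable section

namespace FA.Jordan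

open Set Complex Filter Topology Metric

variable {K : Set ℂ}

/-- The winding number of the cut loop about a point. -/
def Split.wind (S : Split K) (a : ℂ) : ℤ := S.deg (fun z => z - a)

lemma Split.wind_eq_zero_iff (S : Split K) {a : ℂ} (ha : a ∉ K) :
    S.wind a = 0 ↔ ¬Bornology.IsBounded (comp K a) :=
  (S.deg_eq_zero_iff (nonVan_sub ha)).trans (hasLog_sub_iff S.isCompact ha)

lemma Split.wind_eq_of_comp (S : Split K) {a b : ℂ} (ha : a ∉ K) (hb : b ∉ K)
    (h : comp K a = comp K b) : S.wind a = S.wind b := by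
  have h1 := (nonVan_sub ha).mul ((nonVan_sub hb).zpow (-1))
  have h2 : HasLog K (fun z => (z - a) * (z - b) ^ (-1 : ℤ)) :=
    ((eilenberg S.isCompact ha hb).1 h).congr fun z _ => by
      simp [ratio, div_eq_mul_inv]
  have h3 := (S.deg_eq_zero_iff h1).2 h2
  rw [S.deg_mul (nonVan_sub ha) ((nonVan_sub hb).zpow _), S.deg_zpow (nonVan_sub hb)] at h3
  rw [Split.wind, Split.wind]
  linarith

section Line

variable {p q : ℂ} {c : ℝ}

/-- A point of the vertical line. -/
def linePt (c y : ℝ) : ℂ := (c : ℂ) + (y : ℂ) * I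

@[simp] lemma linePt_re (c y : ℝ) : (linePt c y).re = c := by simp [linePt]

@[simp] lemma linePt_im (c y : ℝ) : (linePt c y).im = y := by simp [linePt]

@[fun_prop]
lemma continuous_linePt (c : ℝ) : Continuous (linePt c) := by unfold linePt; fun_prop

/-- The reference logarithm of `(q - a) / (p - a)` on the line. -/
def refLog (p q : ℂ) (c y : ℝ) : ℂ :=
  log (q - linePt c y) - log (linePt c y - p) - Real.pi * I

/-- Increment minus reference. -/
def excess (X : Set ℂ) (p q : ℂ) (c y : ℝ) : ℂ :=
  incr X p q (fun z => z - linePt c y) - refLog p q c y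

lemma exp_refLog (hp : p.re < c) (hq : c < q.re) (y : ℝ) :
    exp (refLog p q c y) = (q - linePt c y) / (p - linePt c y) := by
  have h1 : q - linePt c y ≠ 0 := fun h => by
    have := congrArg Complex.re h; simp at this; linarith
  have h2 : linePt c y - p ≠ 0 := fun h => by
    have := congrArg Complex.re h; simp at this; linarith
  rw [refLog, exp_sub, exp_sub, exp_log h1, exp_log h2, exp_pi_mul_I, div_neg, div_one,
    ← neg_sub (linePt c y) p, div_neg]

lemma exists_excess_int {X : Set ℂ} (hX : IsArc X p q) (hp : p.re < c) (hq : c < q.re) (y : ℝ)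
    (hy : linePt c y ∉ X) : ∃ k : ℤ, excess X p q c y = k * (2 * Real.pi * I) := by
  refine exp_eq_one_iff.1 ?_
  obtain ⟨g, hg, hge⟩ := hX.hasLog (nonVan_sub hy).1 (nonVan_sub hy).2
  have h1 : q - linePt c y ≠ 0 := sub_ne_zero_of_notMem hy hX.right_mem
  have h2 : p - linePt c y ≠ 0 := sub_ne_zero_of_notMem hy hX.left_mem
  rw [excess, incr_eq hX.isPreconnected hX.left_mem hX.right_mem hg hge, exp_sub, exp_sub,
    exp_refLog hp hq, hge _ hX.right_mem, hge _ hX.left_mem]
  exact div_self (div_ne_zero h1 h2)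

lemma continuous_refLog (hp : p.re < c) (hq : c < q.re) : Continuous (refLog p q c) := by
  unfold refLog
  refine ((Continuous.clog (by fun_prop) fun y => ?_).sub (Continuous.clog (by fun_prop) fun y => ?_)).sub
    continuous_const
  · exact mem_slitPlane_iff.2 (Or.inl (by simp; linarith))
  · exact mem_slitPlane_iff.2 (Or.inl (by simp; linarith))

/-- The excess is locally constant off the arc. -/
lemma eventually_excess_eq {X : Set ℂ} (hX : IsArc X p q) (hp : p.re < c) (hq : c < q.re)
    (y₀ : ℝ) (hy : linePt c y₀ ∉ X) :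
    ∀ᶠ y in 𝓝 y₀, linePt c y ∉ X ∧ excess X p q c y = excess X p q c y₀ := by
  obtain ⟨g, hg, hge⟩ := hX.hasLog (nonVan_sub hy).1 (nonVan_sub hy).2
  have hd : 0 < infDist (linePt c y₀) X :=
    (hX.isCompact.isClosed.notMem_iff_infDist_pos ⟨p, hX.left_mem⟩).1 hy
  have hnear : ∀ᶠ y in 𝓝 y₀, ∀ z ∈ X,
      ‖linePt c y - linePt c y₀‖ < ‖z - linePt c y₀‖ := by
    have : ∀ᶠ y in 𝓝 y₀, dist (linePt c y) (linePt c y₀) < infDist (linePt c y₀) X :=
      (continuous_linePt c).continuousAt (ball_mem_nhds _ hd)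
    filter_upwards [this] with y hy' z hz
    rw [← dist_eq_norm, ← dist_eq_norm]
    exact hy'.trans_le ((infDist_le_dist_of_mem hz).trans (dist_comm _ _).le)
  have hslit : ∀ y, (∀ z ∈ X, ‖linePt c y - linePt c y₀‖ < ‖z - linePt c y₀‖) → ∀ z ∈ X,
      (z - linePt c y) / (z - linePt c y₀) ∈ slitPlane := fun y hlt z hz => by
    have h0 := sub_ne_zero_of_notMem hy hz
    refine mem_slitPlane_iff.2 (Or.inl ?_)
    have e : (z - linePt c y) / (z - linePt c y₀) =
        1 + (linePt c y₀ - linePt c y) / (z - linePt c y₀) := by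
      field_simp; ring
    have h1 : ‖(linePt c y₀ - linePt c y) / (z - linePt c y₀)‖ < 1 := by
      rw [norm_div, div_lt_one (norm_pos_iff.2 h0), norm_sub_rev]
      exact hlt z hz
    have h2 := (abs_re_le_norm _).trans_lt h1
    rw [e, add_re, one_re]
    linarith [(abs_lt.1 h2).1]
  have hform : ∀ y, (∀ z ∈ X, ‖linePt c y - linePt c y₀‖ < ‖z - linePt c y₀‖) →
      linePt c y ∉ X ∧ incr X p q (fun z => z - linePt c y) =
        g q + log ((q - linePt c y) / (q - linePt c y₀)) -
          (g p + log ((p - linePt c y) / (p - linePt c y₀))) := fun y hlt => by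
    have hyX : linePt c y ∉ X := fun h => lt_irrefl _ (hlt _ h)
    refine ⟨hyX, incr_eq hX.isPreconnected hX.left_mem hX.right_mem
      (g := fun z => g z + log ((z - linePt c y) / (z - linePt c y₀)))
      (hg.add (ContinuousOn.clog ((nonVan_sub hyX).1.div (nonVan_sub hy).1 (nonVan_sub hy).2)
        (hslit y hlt))) fun z hz => ?_⟩
    have h1 := sub_ne_zero_of_notMem hy hz
    have h2 := sub_ne_zero_of_notMem hyX hz
    rw [exp_add, hge z hz, exp_log (div_ne_zero h2 h1)]
    field_simp
  have hcont : ContinuousAt (excess X p q c) y₀ := by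
    have hmain : ContinuousAt (fun y => g q + log ((q - linePt c y) / (q - linePt c y₀)) -
        (g p + log ((p - linePt c y) / (p - linePt c y₀))) - refLog p q c y) y₀ := by
      have h00 : ∀ z ∈ X, ‖linePt c y₀ - linePt c y₀‖ < ‖z - linePt c y₀‖ := fun z hz => by
        rw [sub_self, norm_zero]
        exact norm_pos_iff.2 (sub_ne_zero_of_notMem hy hz)
      refine ((continuousAt_const.add (ContinuousAt.clog (by fun_prop) ?_)).sub
        (continuousAt_const.add (ContinuousAt.clog (by fun_prop) ?_))).sub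
        (continuous_refLog hp hq).continuousAt
      · exact hslit y₀ h00 q hX.right_mem
      · exact hslit y₀ h00 p hX.left_mem
    refine hmain.congr_of_eventuallyEq ?_
    filter_upwards [hnear] with y hlt
    rw [excess, (hform y hlt).2]
  have hsmall : ∀ᶠ y in 𝓝 y₀, dist (excess X p q c y) (excess X p q c y₀) < 1 :=
    hcont (ball_mem_nhds _ one_pos)
  filter_upwards [hnear, hsmall] with y hlt hy1
  have hyX := (hform y hlt).1
  refine ⟨hyX, ?_⟩
  obtain ⟨m, hm⟩ := exists_excess_int hX hp hq y hyX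
  obtain ⟨n, hn⟩ := exists_excess_int hX hp hq y₀ hy
  rw [dist_eq_norm, hm, hn, ← sub_mul, norm_mul, ← Int.cast_sub, Complex.norm_intCast] at hy1
  have h6 : (1 : ℝ) ≤ ‖(2 * Real.pi * I : ℂ)‖ := by
    simp [abs_of_pos Real.pi_pos]
    linarith [Real.two_le_pi]
  by_contra hne
  have hmn : m ≠ n := fun e => hne (by rw [hm, hn, e])
  have h7 : (1 : ℝ) ≤ |((m - n : ℤ) : ℝ)| := by
    exact_mod_cast Int.one_le_abs (sub_ne_zero.2 hmn)
  nlinarith

lemma abs_arg_lt {z : ℂ} (h : 0 < z.re) : |arg z| < Real.pi / 2 :=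
  abs_arg_lt_pi_div_two_iff.2 (Or.inl h)

/-- The excess at the two ends of the line. -/
lemma excess_ends {X : Set ℂ} (hX : IsArc X p q) (hp : p.re < c) (hq : c < q.re) {C : ℝ}
    (hC : ∀ z ∈ X, |z.im| < C) {y : ℝ} :
    (C ≤ y → excess X p q c y = 2 * Real.pi * I) ∧ (y ≤ -C → excess X p q c y = 0) := by
  have key : ∀ s : ℂ, s ≠ 0 → (∀ z ∈ X, 0 < ((z - linePt c y) / s).re) →
      linePt c y ∉ X ∧ |(incr X p q (fun z => z - linePt c y)).im| < Real.pi := fun s hs hre => by
    have hyX : linePt c y ∉ X := fun h => by simpa using hre _ h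
    refine ⟨hyX, ?_⟩
    rw [incr_eq hX.isPreconnected hX.left_mem hX.right_mem
      (g := fun z => log ((z - linePt c y) / s) + log s)
      ((ContinuousOn.clog (by fun_prop) fun z hz => mem_slitPlane_iff.2 (Or.inl (hre z hz))).add
        continuousOn_const) fun z hz => by
      rw [exp_add, exp_log hs, exp_log (div_ne_zero (sub_ne_zero_of_notMem hyX hz) hs),
        div_mul_cancel₀ _ hs]]
    have h1 := abs_arg_lt (hre p hX.left_mem)
    have h2 := abs_arg_lt (hre q hX.right_mem)
    rw [abs_lt] at h1 h2 ⊢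
    simp only [sub_im, add_im, log_im]
    constructor <;> linarith [h1.1, h1.2, h2.1, h2.2]
  have hqa : 0 < (q - linePt c y).re := by simp; linarith
  have hap : 0 < (linePt c y - p).re := by simp; linarith
  have hq' := abs_lt.1 (abs_arg_lt hqa)
  have hp' := abs_lt.1 (abs_arg_lt hap)
  have hqI := abs_lt.1 (hC q hX.right_mem)
  have hpI := abs_lt.1 (hC p hX.left_mem)
  have hR : (refLog p q c y).im = arg (q - linePt c y) - arg (linePt c y - p) - Real.pi := by
    simp [refLog, log_im]
  have hpi := Real.pi_pos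
  constructor
  · intro hy
    obtain ⟨hyX, hinc⟩ := key (-I) (neg_ne_zero.2 I_ne_zero) fun z hz => by
      have := abs_lt.1 (hC z hz)
      simp [div_eq_mul_inv, mul_re]
      linarith
    have h1 : arg (q - linePt c y) < 0 := arg_neg_iff.2 (by simp; linarith)
    have h2 : 0 ≤ arg (linePt c y - p) := arg_nonneg_iff.2 (by simp; linarith)
    obtain ⟨k, hk⟩ := exists_excess_int hX hp hq y hyX
    have him : (excess X p q c y).im = (k : ℝ) * (2 * Real.pi) := by simp [hk]
    rw [excess, sub_im, hR] at him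
    rw [abs_lt] at hinc
    have hk1 : (0 : ℝ) < (k : ℝ) * (2 * Real.pi) := by linarith
    have hk2 : (k : ℝ) * (2 * Real.pi) < 3 * Real.pi := by linarith
    have h0k : (0 : ℝ) < k := pos_of_mul_pos_left hk1 (by positivity)
    have hk3 : (k : ℝ) < ((2 : ℤ) : ℝ) := by push_cast; nlinarith
    have : k = 1 := by
      have a1 : 0 < k := by exact_mod_cast h0k
      have a2 : k < 2 := Int.cast_lt.1 hk3
      omega
    rw [hk, this]
    simp
  · intro hy
    obtain ⟨hyX, hinc⟩ := key I I_ne_zero fun z hz => by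
      have := abs_lt.1 (hC z hz)
      simp [div_eq_mul_inv, mul_re]
      linarith
    have h1 : 0 ≤ arg (q - linePt c y) := arg_nonneg_iff.2 (by simp; linarith)
    have h2 : arg (linePt c y - p) < 0 := arg_neg_iff.2 (by simp; linarith)
    obtain ⟨k, hk⟩ := exists_excess_int hX hp hq y hyX
    have him : (excess X p q c y).im = (k : ℝ) * (2 * Real.pi) := by simp [hk]
    rw [excess, sub_im, hR] at him
    rw [abs_lt] at hinc
    have hk1 : -Real.pi < (k : ℝ) * (2 * Real.pi) := by linarith
    have hk2 : (k : ℝ) * (2 * Real.pi) < 2 * Real.pi := by linarith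
    have hk3 : (k : ℝ) < ((1 : ℤ) : ℝ) := by push_cast; nlinarith
    have hk4 : ((-1 : ℤ) : ℝ) < (k : ℝ) := by push_cast; nlinarith
    have : k = 0 := by
      have a1 := Int.cast_lt.1 hk3
      have a2 := Int.cast_lt.1 hk4
      omega
    rw [hk, this]
    simp

end Line

/-- Winding numbers about the points of a line have no common divisor but one. -/
theorem Split.eq_one_of_dvd (S : Split K) (hpq : S.p.re < S.q.re)
    (hext : ∀ z ∈ K, z.re = (S.p.re + S.q.re) / 2 → z ≠ S.p ∧ z ≠ S.q)
    (N : ℕ) (hN : ∀ a ∉ K, (N : ℤ) ∣ S.wind a) : N = 1 := by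
  classical
  set c := (S.p.re + S.q.re) / 2 with hc
  have hp : S.p.re < c := by linarith
  have hq : c < S.q.re := by linarith
  let e : Set ℂ → ℝ → ℂ := fun X y => excess X S.p S.q c y / (2 * Real.pi * I)
  let k : Set ℂ → ℝ → ℤ := fun X y => round (e X y).re
  have hk : ∀ X, IsArc X S.p S.q → ∀ y, linePt c y ∉ X →
      excess X S.p S.q c y = k X y * (2 * Real.pi * I) := fun X hX y hy => by
    obtain ⟨m, hm⟩ := exists_excess_int hX hp hq y hy
    have : k X y = m := by
      simp only [k, e, hm, mul_div_cancel_right₀ _ two_pi_I_ne_zero, intCast_re, round_intCast]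
    rw [this, hm]
  have hdisj : ∀ y, ¬(linePt c y ∈ S.A ∧ linePt c y ∈ S.B) := fun y ⟨h1, h2⟩ => by
    have h := S.inter_eq.subset ⟨h1, h2⟩
    have h3 := hext _ (S.subset_A h1) (linePt_re c y)
    rcases h with h | h
    · exact h3.1 h
    · exact h3.2 h
  have hdeg : ∀ y, linePt c y ∉ K → S.wind (linePt c y) = k S.A y - k S.B y := fun y hy => by
    refine S.deg_unique (nonVan_sub hy) ?_
    have hA := hk S.A S.isArcA y fun h => hy (S.subset_A h)
    have hB := hk S.B S.isArcB y fun h => hy (S.subset_B h)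
    rw [Split.turn]
    push_cast
    rw [sub_mul, ← hA, ← hB, excess, excess]
    ring
  let G : ℝ → ZMod N := fun y => if linePt c y ∈ S.A then (k S.B y : ZMod N) else (k S.A y : ZMod N)
  have hGA : ∀ y, linePt c y ∉ S.A → G y = (k S.A y : ZMod N) := fun y hy => if_neg hy
  have hGB : ∀ y, linePt c y ∉ S.B → G y = (k S.B y : ZMod N) := fun y hy => by
    by_cases hA : linePt c y ∈ S.A
    · exact if_pos hA
    · rw [hGA y hA, ZMod.intCast_eq_intCast_iff_dvd_sub]
      have hyK : linePt c y ∉ K := fun h => by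
        rw [← S.union_eq] at h
        exact h.elim hA hy
      have := hN _ hyK
      rw [hdeg y hyK] at this
      have := dvd_neg.2 this
      rwa [neg_sub] at this
  have hloc : IsLocallyConstant G := (IsLocallyConstant.iff_eventually_eq G).2 fun y => by
    by_cases hA : linePt c y ∈ S.A
    · have hB : linePt c y ∉ S.B := fun h => hdisj y ⟨hA, h⟩
      filter_upwards [eventually_excess_eq S.isArcB hp hq y hB] with z hz
      rw [hGB z hz.1, hGB y hB]
      simp only [k, e, hz.2]
    · filter_upwards [eventually_excess_eq S.isArcA hp hq y hA] with z hz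
      rw [hGA z hz.1, hGA y hA]
      simp only [k, e, hz.2]
  obtain ⟨C, hC⟩ := S.isCompact.exists_bound_of_continuousOn (f := id) continuousOn_id
  have hC' : ∀ z ∈ K, |z.im| < |C| + 1 := fun z hz =>
    ((abs_im_le_norm z).trans (hC z hz)).trans_lt (by linarith [le_abs_self C])
  have hout : ∀ y, |C| + 1 ≤ |y| → linePt c y ∉ S.A := fun y hy h => by
    have := hC' _ (S.subset_A h)
    rw [linePt_im] at this
    linarith
  have h1 : G (|C| + 1) = 1 := by
    have hy := hout (|C| + 1) (le_abs_self _)
    rw [hGA _ hy]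
    simp only [k, e, (excess_ends S.isArcA hp hq fun z hz => hC' z (S.subset_A hz)).1 le_rfl,
      div_self two_pi_I_ne_zero, one_re]
    simp
  have h0 : G (-(|C| + 1)) = 0 := by
    have hy := hout (-(|C| + 1)) (by rw [abs_neg]; exact le_abs_self _)
    rw [hGA _ hy]
    simp only [k, e, (excess_ends S.isArcA hp hq fun z hz => hC' z (S.subset_A hz)).2 le_rfl,
      zero_div, zero_re]
    simp
  have h := hloc.apply_eq_of_preconnectedSpace (|C| + 1) (-(|C| + 1))
  rw [h1, h0] at h
  have : (N : ℤ) ∣ 1 := by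
    have h' : ((1 : ℤ) : ZMod N) = 0 := by simpa using h
    exact (ZMod.intCast_zmod_eq_zero_iff_dvd 1 N).1 h'
  exact_mod_cast Int.eq_one_of_dvd_one (Int.natCast_nonneg N) this

namespace IsLoop

variable (hK : IsLoop K)

include hK in
/-- A cut at the leftmost and rightmost points. -/
lemma exists_extreme_split : ∃ S : Split K, S.p.re < S.q.re ∧
    ∀ z ∈ K, z.re = (S.p.re + S.q.re) / 2 → z ≠ S.p ∧ z ≠ S.q := by
  have hne : K.Nonempty := by
    obtain ⟨γ, -, -, -, rfl⟩ := hK
    exact ⟨γ 0, mem_image_of_mem γ (left_mem_Icc.2 zero_le_one)⟩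
  obtain ⟨p, hp, hpmin⟩ := hK.isCompact.exists_isMinOn hne continuous_re.continuousOn
  obtain ⟨q, hq, hqmax⟩ := hK.isCompact.exists_isMaxOn hne continuous_re.continuousOn
  have hlt : p.re < q.re := by
    rcases (show p.re ≤ q.re from hqmax hp).lt_or_eq with h | h
    · exact h
    exfalso
    have hre : ∀ z ∈ K, z.re = p.re := fun z hz =>
      le_antisymm (h ▸ hqmax hz) (hpmin hz)
    obtain ⟨γ, hc, hi, h01, rfl⟩ := hK
    let f : ℝ → ℝ := fun t => (γ t).im
    have hf : ContinuousOn f (Icc 0 1) := continuous_im.comp_continuousOn hc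
    have hfi : InjOn f (Ico 0 1) := fun s hs t ht e => hi hs ht (Complex.ext
      ((hre _ (mem_image_of_mem γ (Ico_subset_Icc_self hs))).trans
        (hre _ (mem_image_of_mem γ (Ico_subset_Icc_self ht))).symm) e)
    have hhalf : (1 / 2 : ℝ) ∈ Ico (0 : ℝ) 1 := ⟨by norm_num, by norm_num⟩
    have h2 : f (1 / 2) ≠ f 0 := fun e => by
      have := hfi hhalf ⟨le_rfl, one_pos⟩ e
      norm_num at this
    have hf1 : f 1 = f 0 := by simp [f, h01]
    set v := (f 0 + f (1 / 2)) / 2 with hv
    have hv1 : v ≠ f 0 := fun e => h2 (by linarith)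
    have hv2 : v ≠ f (1 / 2) := fun e => h2 (by linarith)
    have hvI : v ∈ uIcc (f 0) (f (1 / 2)) := by
      rw [mem_uIcc]
      rcases le_total (f 0) (f (1 / 2)) with h | h
      · left; constructor <;> linarith
      · right; constructor <;> linarith
    obtain ⟨s, hs, hsv⟩ := intermediate_value_uIcc (hf.mono (by
      rw [uIcc_of_le (by norm_num)]; exact Icc_subset_Icc le_rfl (by norm_num))) hvI
    obtain ⟨t, ht, htv⟩ := intermediate_value_uIcc (a := (1 / 2 : ℝ)) (b := 1) (hf.mono (by
      rw [uIcc_of_le (by norm_num)]; exact Icc_subset_Icc (by norm_num) le_rfl))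
      (show v ∈ uIcc (f (1 / 2)) (f 1) by rw [hf1, uIcc_comm]; exact hvI)
    rw [uIcc_of_le (by norm_num)] at hs ht
    have hs1 : s < 1 / 2 := hs.2.lt_of_ne fun e => hv2 (by rw [← hsv, e])
    have ht1 : t < 1 := ht.2.lt_of_ne fun e => hv1 (by rw [← htv, e, hf1])
    have := hfi ⟨hs.1, by linarith⟩ ⟨by linarith [ht.1], ht1⟩ (hsv.trans htv.symm)
    linarith [ht.1]
  obtain ⟨S, hSp, hSq⟩ := hK.exists_split hp hq fun e => hlt.ne (congrArg Complex.re e)
  refine ⟨S, by rw [hSp, hSq]; exact hlt, fun z _ hz => ?_⟩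
  rw [hSp, hSq] at hz ⊢
  constructor <;> intro e <;> subst e <;> linarith

include hK in
/-- Some component is bounded. -/
theorem exists_bounded : ∃ a ∉ K, Bornology.IsBounded (comp K a) := by
  obtain ⟨S, h1, h2⟩ := hK.exists_extreme_split
  by_contra hcon
  push Not at hcon
  have := S.eq_one_of_dvd h1 h2 0 fun a ha => by
    rw [(S.wind_eq_zero_iff ha).2 (hcon a ha)]
    exact dvd_zero _
  exact zero_ne_one this

include hK in
/-- There is only one bounded component. -/
theorem bounded_comp_eq {a b : ℂ} (ha : a ∉ K) (hb : b ∉ K)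
    (hba : Bornology.IsBounded (comp K a)) (hbb : Bornology.IsBounded (comp K b)) :
    comp K a = comp K b := by
  obtain ⟨S, -, -⟩ := hK.exists_extreme_split
  by_contra hne
  have hb' : b ∉ closure (comp K a) := fun hcl => by
    obtain ⟨w, hw, hw'⟩ :=
      mem_closure_iff.1 hcl _ (isOpen_comp hK.isCompact.isClosed b) (mem_comp hb)
    exact hne ((comp_eq hw').symm.trans (comp_eq hw))
  have hk : S.wind b ≠ 0 := fun h => (S.wind_eq_zero_iff hb).1 h hbb
  have hN := ((nonVan_sub ha).zpow (S.wind b)).mul ((nonVan_sub hb).zpow (-S.wind a))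
  have hd : S.deg (fun z => (z - a) ^ S.wind b * (z - b) ^ (-S.wind a)) = 0 := by
    rw [S.deg_mul ((nonVan_sub ha).zpow _) ((nonVan_sub hb).zpow _), S.deg_zpow (nonVan_sub ha),
      S.deg_zpow (nonVan_sub hb), Split.wind, Split.wind]
    ring
  refine not_hasLog_of_bounded hK.isCompact ha hba hk (ψ := fun z => (z - b) ^ (-S.wind a)) ?_ ?_
    ((S.deg_eq_zero_iff hN).1 hd)
  · exact ContinuousOn.zpow₀ (by fun_prop) _ fun z hz => Or.inl (sub_ne_zero.2
      fun e => hb' (e ▸ hz))
  · exact fun z hz => zpow_ne_zero _ (sub_ne_zero.2 fun e => hb' (e ▸ hz))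

include hK in
/-- The winding number about a point of the bounded component is `1` or `-1`. -/
theorem wind_eq_one_or_neg_one (T : Split K) {a : ℂ} (ha : a ∉ K)
    (hba : Bornology.IsBounded (comp K a)) : T.wind a = 1 ∨ T.wind a = -1 := by
  obtain ⟨S, h1, h2⟩ := hK.exists_extreme_split
  have hS : (S.wind a).natAbs = 1 := S.eq_one_of_dvd h1 h2 _ fun b hb => by
    by_cases hbb : Bornology.IsBounded (comp K b)
    · rw [S.wind_eq_of_comp hb ha (hK.bounded_comp_eq hb ha hbb hba)]
      exact Int.natAbs_dvd.2 dvd_rfl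
    · rw [(S.wind_eq_zero_iff hb).2 hbb]
      exact dvd_zero _
  obtain ⟨ε, hε, h⟩ := S.exists_sign T
  rw [Split.wind, h _ (nonVan_sub ha)]
  change ε * S.wind a = 1 ∨ ε * S.wind a = -1
  rcases hε with rfl | rfl <;> omega

include hK in
/-- There is an unbounded component. -/
theorem exists_unbounded : ∃ a ∉ K, ¬Bornology.IsBounded (comp K a) := by
  obtain ⟨R, hR⟩ := hK.isCompact.exists_bound_of_continuousOn (f := id) continuousOn_id
  have hb : R < ‖((|R| + 1 : ℝ) : ℂ)‖ := by
    rw [norm_real, Real.norm_eq_abs, abs_of_pos (by positivity)]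
    linarith [le_abs_self R]
  exact ⟨_, fun h => absurd (hR _ h) (not_le.2 hb), unbounded_comp_of_large hR hb⟩

include hK in
/-- The loop is the whole boundary of every component. -/
theorem frontier_comp {a : ℂ} (ha : a ∉ K) : frontier (comp K a) = K := by
  have hKc := hK.isCompact.isClosed
  refine (frontier_comp_subset hKc a).antisymm fun z hz => ?_
  by_contra hzF
  obtain ⟨X, u, v, hX, hFX, hXK, -⟩ :=
    hK.exists_arc_superset isClosed_frontier (frontier_comp_subset hKc a) hz hzF
  obtain ⟨b, hb, hab⟩ : ∃ b ∉ K, comp K b ≠ comp K a := by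
    by_cases hba : Bornology.IsBounded (comp K a)
    · obtain ⟨b, hb, hbb⟩ := hK.exists_unbounded
      exact ⟨b, hb, fun e => hbb (e ▸ hba)⟩
    · obtain ⟨b, hb, hbb⟩ := hK.exists_bounded
      exact ⟨b, hb, fun e => hba (e ▸ hbb)⟩
  have hopen := isOpen_comp hKc a
  have hbc : b ∉ closure (comp K a) := fun hcl => by
    obtain ⟨w, hw, hw'⟩ := mem_closure_iff.1 hcl _ (isOpen_comp hKc b) (mem_comp hb)
    exact hab ((comp_eq hw).symm.trans (comp_eq hw'))
  obtain ⟨w, hw, hw1, hw2⟩ := hX.isPreconnected_compl (comp K a) (closure (comp K a))ᶜ hopen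
    isClosed_closure.isOpen_compl (fun w hw => by
      by_cases hwc : w ∈ closure (comp K a)
      · refine Or.inl (by_contra fun hwU => hw (hFX ?_))
        rw [hopen.frontier_eq]
        exact ⟨hwc, hwU⟩
      · exact Or.inr hwc)
    ⟨a, fun h => ha (hXK h), mem_comp ha⟩ ⟨b, fun h => hb (hXK h), hbc⟩
  exact hw2 (subset_closure hw1)

include hK in
/-- The complement of a loop consists of an inside and an outside. -/
theorem jordan : ∃ U V : Set ℂ, IsOpen U ∧ IsOpen V ∧ IsConnected U ∧ IsConnected V ∧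
    Disjoint U V ∧ U ∪ V = Kᶜ ∧ Bornology.IsBounded U ∧ ¬Bornology.IsBounded V ∧
    frontier U = K ∧ frontier V = K ∧
    ∀ z ∉ K, connectedComponentIn Kᶜ z = U ∨ connectedComponentIn Kᶜ z = V := by
  obtain ⟨a, ha, hba⟩ := hK.exists_bounded
  obtain ⟨b, hb, hbb⟩ := hK.exists_unbounded
  have hall : ∀ z ∉ K, comp K z = comp K a ∨ comp K z = comp K b := fun z hz => by
    by_cases h : Bornology.IsBounded (comp K z)
    · exact Or.inl (hK.bounded_comp_eq hz ha h hba)
    · exact Or.inr (comp_eq_of_unbounded hK.isCompact hz hb h hbb)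
  refine ⟨comp K a, comp K b, isOpen_comp hK.isCompact.isClosed a,
    isOpen_comp hK.isCompact.isClosed b, isConnected_connectedComponentIn_iff.2 ha,
    isConnected_connectedComponentIn_iff.2 hb, ?_, ?_, hba, hbb, hK.frontier_comp ha,
    hK.frontier_comp hb, hall⟩
  · refine disjoint_left.2 fun z hz hz' => hbb ?_
    rw [← comp_eq hz', comp_eq hz]
    exact hba
  · refine Subset.antisymm (union_subset (comp_subset a) (comp_subset b)) fun z hz => ?_
    rcases hall z hz with h | h
    · exact Or.inl (h ▸ mem_comp hz)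
    · exact Or.inr (h ▸ mem_comp hz)

end IsLoop

end FA.Jordan
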