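import Fermat.Agent.Jordan.Arc

/-!
# The degree of a function on a loop
-/

set_option autoImplicit false

noncomputable section

namespace FA.Jordan

open Set Complex Filter Topology Metric

open scoped Classical in
/-- The increment of a logarithm of `f` along `X` from `u` to `v`. -/
def incr (X : Set ℂ) (u v : ℂ) (f : ℂ → ℂ) : ℂ :=
  if h : HasLog X f then h.choose v - h.choose u else 0

lemma incr_eq {X : Set ℂ} (hX : IsPreconnected X) {u v : ℂ} (hu : u ∈ X) (hv : v ∈ X)
    {f g : ℂ → ℂ} (hg : ContinuousOn g X) (he : ∀ z ∈ X, exp (g z) = f z) :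
    incr X u v f = g v - g u := by
  have h : HasLog X f := ⟨g, hg, he⟩
  rw [incr, dif_pos h]
  exact log_sub_eq hX h.choose_spec.1 hg
    (fun z hz => (h.choose_spec.2 z hz).trans (he z hz).symm) hv hu

/-- Continuous and nonvanishing. -/
def NonVan (K : Set ℂ) (f : ℂ → ℂ) : Prop := ContinuousOn f K ∧ ∀ z ∈ K, f z ≠ 0

lemma NonVan.mul {K : Set ℂ} {f f' : ℂ → ℂ} (h : NonVan K f) (h' : NonVan K f') :
    NonVan K (fun z => f z * f' z) :=
  ⟨h.1.mul h'.1, fun z hz => mul_ne_zero (h.2 z hz) (h'.2 z hz)⟩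

lemma NonVan.zpow {K : Set ℂ} {f : ℂ → ℂ} (h : NonVan K f) (k : ℤ) :
    NonVan K (fun z => f z ^ k) :=
  ⟨h.1.zpow₀ k fun z hz => Or.inl (h.2 z hz), fun z hz => zpow_ne_zero k (h.2 z hz)⟩

lemma nonVan_sub {K : Set ℂ} {a : ℂ} (ha : a ∉ K) : NonVan K (fun z => z - a) :=
  ⟨by fun_prop, fun _ hz => sub_ne_zero_of_notMem ha hz⟩

namespace Split

variable {K : Set ℂ} (S : Split K)

lemma isCompact (S : Split K) : IsCompact K := S.union_eq ▸ S.isArcA.isCompact.union S.isArcB.isCompact

lemma subset_A : S.A ⊆ K := subset_union_left.trans S.union_eq.subset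

lemma subset_B : S.B ⊆ K := subset_union_right.trans S.union_eq.subset

lemma exists_logs {f : ℂ → ℂ} (hf : NonVan K f) : HasLog S.A f ∧ HasLog S.B f :=
  ⟨S.isArcA.hasLog (hf.1.mono S.subset_A) fun z hz => hf.2 z (S.subset_A hz),
    S.isArcB.hasLog (hf.1.mono S.subset_B) fun z hz => hf.2 z (S.subset_B hz)⟩

/-- The increment round the loop. -/
def turn (f : ℂ → ℂ) : ℂ := incr S.A S.p S.q f - incr S.B S.p S.q f

lemma turn_eq {f gA gB : ℂ → ℂ} (hA : ContinuousOn gA S.A) (hAe : ∀ z ∈ S.A, exp (gA z) = f z)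
    (hB : ContinuousOn gB S.B) (hBe : ∀ z ∈ S.B, exp (gB z) = f z) :
    S.turn f = gA S.q - gA S.p - (gB S.q - gB S.p) := by
  rw [turn, incr_eq S.isArcA.isPreconnected S.isArcA.left_mem S.isArcA.right_mem hA hAe,
    incr_eq S.isArcB.isPreconnected S.isArcB.left_mem S.isArcB.right_mem hB hBe]

lemma exists_int (f : ℂ → ℂ) (hf : NonVan K f) :
    ∃ n : ℤ, S.turn f = n * (2 * Real.pi * I) := by
  obtain ⟨⟨gA, hA, hAe⟩, gB, hB, hBe⟩ := S.exists_logs hf
  rw [S.turn_eq hA hAe hB hBe]
  refine exp_eq_one_iff.1 ?_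
  have hpA := S.isArcA.left_mem; have hqA := S.isArcA.right_mem
  have hpB := S.isArcB.left_mem; have hqB := S.isArcB.right_mem
  have hp0 := hf.2 S.p (S.subset_A hpA); have hq0 := hf.2 S.q (S.subset_A hqA)
  rw [exp_sub, exp_sub, exp_sub, hAe _ hpA, hAe _ hqA, hBe _ hpB, hBe _ hqB]
  field_simp

open scoped Classical in
/-- The degree. -/
def deg (f : ℂ → ℂ) : ℤ := if h : NonVan K f then (S.exists_int f h).choose else 0

lemma deg_spec {f : ℂ → ℂ} (hf : NonVan K f) : S.turn f = S.deg f * (2 * Real.pi * I) := by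
  rw [deg, dif_pos hf]
  exact (S.exists_int f hf).choose_spec

lemma deg_unique {f : ℂ → ℂ} (hf : NonVan K f) {n : ℤ} (h : S.turn f = n * (2 * Real.pi * I)) :
    S.deg f = n := by
  rw [S.deg_spec hf] at h
  exact_mod_cast mul_right_cancel₀ two_pi_I_ne_zero h

lemma deg_mul {f f' : ℂ → ℂ} (hf : NonVan K f) (hf' : NonVan K f') :
    S.deg (fun z => f z * f' z) = S.deg f + S.deg f' := by
  obtain ⟨⟨gA, hA, hAe⟩, gB, hB, hBe⟩ := S.exists_logs hf
  obtain ⟨⟨gA', hA', hAe'⟩, gB', hB', hBe'⟩ := S.exists_logs hf'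
  refine S.deg_unique (hf.mul hf') ?_
  push_cast
  rw [add_mul, ← S.deg_spec hf, ← S.deg_spec hf', S.turn_eq hA hAe hB hBe,
    S.turn_eq hA' hAe' hB' hBe',
    S.turn_eq (gA := gA + gA') (gB := gB + gB') (hA.add hA')
      (fun z hz => by rw [Pi.add_apply, exp_add, hAe z hz, hAe' z hz]) (hB.add hB')
      (fun z hz => by rw [Pi.add_apply, exp_add, hBe z hz, hBe' z hz])]
  simp only [Pi.add_apply]
  ring

lemma deg_zpow {f : ℂ → ℂ} (hf : NonVan K f) (k : ℤ) : S.deg (fun z => f z ^ k) = k * S.deg f := by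
  obtain ⟨⟨gA, hA, hAe⟩, gB, hB, hBe⟩ := S.exists_logs hf
  refine S.deg_unique (hf.zpow k) ?_
  push_cast
  rw [mul_assoc, ← S.deg_spec hf, S.turn_eq hA hAe hB hBe,
    S.turn_eq (gA := fun z => (k : ℂ) * gA z) (gB := fun z => (k : ℂ) * gB z)
      (continuousOn_const.mul hA) (fun z hz => by rw [exp_int_mul, hAe z hz])
      (continuousOn_const.mul hB) (fun z hz => by rw [exp_int_mul, hBe z hz])]
  ring

lemma deg_congr {f f' : ℂ → ℂ} (hf : NonVan K f) (h : ∀ z ∈ K, f z = f' z) :
    S.deg f = S.deg f' := by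
  have hf' : NonVan K f' := ⟨hf.1.congr fun z hz => (h z hz).symm, fun z hz => h z hz ▸ hf.2 z hz⟩
  obtain ⟨⟨gA, hA, hAe⟩, gB, hB, hBe⟩ := S.exists_logs hf
  refine (S.deg_unique hf' ?_).symm
  rw [← S.deg_spec hf, S.turn_eq hA hAe hB hBe,
    S.turn_eq hA (fun z hz => (hAe z hz).trans (h z (S.subset_A hz))) hB
      (fun z hz => (hBe z hz).trans (h z (S.subset_B hz)))]

/-- The degree vanishes exactly when a logarithm exists. -/
theorem deg_eq_zero_iff {f : ℂ → ℂ} (hf : NonVan K f) : S.deg f = 0 ↔ HasLog K f := by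
  classical
  constructor
  · intro h0
    obtain ⟨⟨gA, hA, hAe⟩, gB, hB, hBe⟩ := S.exists_logs hf
    have ht := S.deg_spec hf
    rw [h0, S.turn_eq hA hAe hB hBe] at ht
    push_cast at ht
    rw [zero_mul] at ht
    have hcon : exp (gA S.p - gB S.p) = 1 := by
      rw [exp_sub, hAe _ S.isArcA.left_mem, hBe _ S.isArcB.left_mem,
        div_self (hf.2 _ (S.subset_A S.isArcA.left_mem))]
    let g : ℂ → ℂ := fun z => if z ∈ S.A then gA z else gB z + (gA S.p - gB S.p)
    have h1 : EqOn g gA S.A := fun z hz => if_pos hz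
    have h2 : EqOn g (fun z => gB z + (gA S.p - gB S.p)) S.B := fun z hz => by
      by_cases hzA : z ∈ S.A
      · have hm : z ∈ S.A ∩ S.B := ⟨hzA, hz⟩
        rw [S.inter_eq] at hm
        rw [h1 hzA]
        rcases hm with rfl | hm
        · ring
        · rw [mem_singleton_iff] at hm
          subst hm
          linear_combination ht
      · exact if_neg hzA
    refine ⟨g, ?_, fun z hz => ?_⟩
    · rw [← S.union_eq]
      exact (hA.congr h1).union_of_isClosed ((hB.add continuousOn_const).congr h2)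
        S.isArcA.isCompact.isClosed S.isArcB.isCompact.isClosed
    · rw [← S.union_eq] at hz
      rcases hz with hz | hz
      · rw [h1 hz, hAe z hz]
      · rw [h2 hz, exp_add, hBe z hz, hcon, mul_one]
  · rintro ⟨g, hg, hge⟩
    refine S.deg_unique hf ?_
    rw [S.turn_eq (hg.mono S.subset_A) (fun z hz => hge z (S.subset_A hz)) (hg.mono S.subset_B)
      (fun z hz => hge z (S.subset_B hz))]
    simp

/-- Some function has degree one. -/
theorem exists_deg_one : ∃ h : ℂ → ℂ, NonVan K h ∧ S.deg h = 1 := by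
  classical
  have hne : ∀ z : ℂ, dist z S.p + dist z S.q ≠ 0 := fun z h0 => S.isArcA.ne (by
    have h1 := dist_nonneg (x := z) (y := S.p)
    have h2 := dist_nonneg (x := z) (y := S.q)
    exact (dist_eq_zero.1 (by linarith : dist z S.p = 0)).symm.trans
      (dist_eq_zero.1 (by linarith : dist z S.q = 0)))
  let g : ℂ → ℂ := fun z => ((dist z S.p / (dist z S.p + dist z S.q) : ℝ) : ℂ) * (2 * Real.pi * I)
  have hg : Continuous g :=
    (continuous_ofReal.comp (Continuous.div (by fun_prop) (by fun_prop) hne)).mul continuous_const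
  have gp : g S.p = 0 := by simp [g]
  have gq : g S.q = 2 * Real.pi * I := by
    simp only [g, dist_self, add_zero]
    rw [div_self (dist_ne_zero.2 S.isArcA.ne.symm)]
    simp
  let h : ℂ → ℂ := fun z => if z ∈ S.A then exp (g z) else 1
  have h1 : EqOn h (fun z => exp (g z)) S.A := fun z hz => if_pos hz
  have h2 : EqOn h (fun _ => (1 : ℂ)) S.B := fun z hz => by
    by_cases hzA : z ∈ S.A
    · have hm : z ∈ S.A ∩ S.B := ⟨hzA, hz⟩
      rw [S.inter_eq] at hm
      rw [h1 hzA]
      rcases hm with rfl | hm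
      · simp [gp]
      · rw [mem_singleton_iff] at hm
        subst hm
        simp [gq, exp_two_pi_mul_I]
    · exact if_neg hzA
  have hN : NonVan K h := by
    refine ⟨?_, fun z hz => ?_⟩
    · rw [← S.union_eq]
      exact (hg.cexp.continuousOn.congr h1).union_of_isClosed (continuousOn_const.congr h2)
        S.isArcA.isCompact.isClosed S.isArcB.isCompact.isClosed
    · rw [← S.union_eq] at hz
      rcases hz with hz | hz
      · rw [h1 hz]; exact exp_ne_zero _
      · rw [h2 hz]; exact one_ne_zero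
  refine ⟨h, hN, S.deg_unique hN ?_⟩
  rw [S.turn_eq (gA := g) (gB := fun _ => 0) hg.continuousOn (fun z hz => (h1 hz).symm)
    continuousOn_const (fun z hz => by rw [h2 hz, exp_zero]), gp, gq]
  simp

/-- Two cuts of a loop give the same degree up to one sign. -/
theorem exists_sign (T : Split K) :
    ∃ ε : ℤ, (ε = 1 ∨ ε = -1) ∧ ∀ f, NonVan K f → T.deg f = ε * S.deg f := by
  obtain ⟨h, hh, hh1⟩ := S.exists_deg_one
  have key : ∀ f, NonVan K f → T.deg f = T.deg h * S.deg f := fun f hf => by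
    have h0 : S.deg (fun z => f z * h z ^ (-S.deg f)) = 0 := by
      rw [S.deg_mul hf (hh.zpow _), S.deg_zpow hh, hh1]
      ring
    have h1 := (T.deg_eq_zero_iff (hf.mul (hh.zpow _))).2
      ((S.deg_eq_zero_iff (hf.mul (hh.zpow _))).1 h0)
    rw [T.deg_mul hf (hh.zpow _), T.deg_zpow hh] at h1
    linear_combination h1
  obtain ⟨h', hh', hh1'⟩ := T.exists_deg_one
  refine ⟨T.deg h, Int.eq_one_or_neg_one_of_mul_eq_one (v := S.deg h') ?_, key⟩
  rw [← key h' hh', hh1']

end Split

end FA.Jordan
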