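import Fermat.Agent.Jordan.Planar

/-!
# A drawing of the complete graph on four vertices
-/

set_option linter.unnecessarySeqFocus false

set_option autoImplicit false
noncomputable section
namespace FA.Jordan
open Set Complex

/-- Positions for the complete graph on four vertices: a triangle and its centre. -/
def posFour : Fin 4 → ℂ := ![⟨0, 0⟩, ⟨4, 0⟩, ⟨2, 4⟩, ⟨2, 1⟩]

/-- The straight segment between two positions. -/
def lineFour (u v : Fin 4) (t : ℝ) : ℂ := (1 - (t : ℂ)) * posFour u + (t : ℂ) * posFour v

/-- A drawing of the complete graph on four vertices. -/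
def drawingFour : PlaneDrawing (⊤ : SimpleGraph (Fin 4)) where
  pos := posFour
  pos_injective := by
    intro a b h
    fin_cases a <;> fin_cases b <;> simp [posFour, Complex.ext_iff] at h ⊢
  path := lineFour
  continuousOn u v _ := by unfold lineFour; fun_prop
  injOn u v h := fun s _ t _ e => by
    have h' : posFour u ≠ posFour v := by
      have huv : u ≠ v := h
      fin_cases u <;> fin_cases v <;> simp [posFour, Complex.ext_iff] at huv ⊢
    have h0 : ((s : ℂ) - t) * (posFour v - posFour u) = 0 := by
      simp only [lineFour] at e; linear_combination e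
    have := (mul_eq_zero.1 h0).resolve_right (sub_ne_zero.2 h'.symm)
    exact_mod_cast sub_eq_zero.1 this
  path_zero u v _ := by simp [lineFour]
  path_one u v _ := by simp [lineFour]
  image_comm u v _ := by
    have hh : ∀ a b t, lineFour a b t = lineFour b a (1 - t) := fun a b t => by
      simp [lineFour]; ring
    ext z
    constructor <;> rintro ⟨t, ht, rfl⟩ <;>
      exact ⟨1 - t, ⟨by linarith [ht.2], by linarith [ht.1]⟩, (hh _ _ t).symm⟩
  vertex u v w h := by
    have huv : u ≠ v := h
    rintro ⟨t, ⟨ht0, ht1⟩, e⟩
    have h1 := congrArg Complex.re e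
    have h2 := congrArg Complex.im e
    fin_cases u <;> fin_cases v <;> first
      | exact absurd rfl huv
      | (fin_cases w <;> first
        | (left; rfl)
        | (right; rfl)
        | (exfalso; simp [lineFour, posFour] at h1 h2 <;> linarith))
  no_crossing u v u' v' h h' hne := by
    have huv : u ≠ v := h
    have huv' : u' ≠ v' := h'
    rintro z ⟨⟨s, ⟨hs0, hs1⟩, rfl⟩, t, ⟨ht0, ht1⟩, e⟩
    have h1 := congrArg Complex.re e
    have h2 := congrArg Complex.im e
    suffices s = 0 ∨ s = 1 by
      rcases this with rfl | rfl
      · exact ⟨u, by simp [lineFour]⟩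
      · exact ⟨v, by simp [lineFour]⟩
    fin_cases u <;> fin_cases v <;> first
      | exact absurd rfl huv
      | (fin_cases u' <;> fin_cases v' <;> first
        | exact absurd rfl huv'
        | exact absurd (by decide) hne
        | (simp [lineFour, posFour] at h1 h2
           first | (left; linarith) | (right; linarith)))

end FA.Jordan
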