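import Fermat.Agent.Jordan.Log

/-!
# Eilenberg's criterion

Two points off a compact plane set lie in the same component of the complement exactly when the
ratio of their distance functions has a continuous logarithm on the set.
-/

set_option autoImplicit false

noncomputable section

namespace FA.Jordan

open Set Complex Filter Topology Metric

/-- The ratio function. -/
def ratio (a b z : ℂ) : ℂ := (z - a) / (z - b)

lemma sub_ne_zero_of_notMem {K : Set ℂ} {a z : ℂ} (ha : a ∉ K) (hz : z ∈ K) : z - a ≠ 0 :=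
  sub_ne_zero.2 fun h => ha (h ▸ hz)

lemma hasLog_of_re_pos {K : Set ℂ} {f : ℂ → ℂ} (hf : ContinuousOn f K)
    (hre : ∀ z ∈ K, 0 < (f z).re) : HasLog K f :=
  ⟨fun z => log (f z), hf.clog fun z hz => mem_slitPlane_iff.2 (Or.inl (hre z hz)),
    fun z hz => exp_log fun h0 => by simpa [h0] using hre z hz⟩

lemma hasLog_ratio_near {K : Set ℂ} {a a' : ℂ} (ha : a ∉ K)
    (hlt : ∀ z ∈ K, ‖a' - a‖ < ‖z - a‖) : HasLog K (ratio a' a) := by
  refine hasLog_of_re_pos ?_ fun z hz => ?_
  · exact ContinuousOn.div (continuousOn_id.sub continuousOn_const)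
      (continuousOn_id.sub continuousOn_const) fun z hz => sub_ne_zero_of_notMem ha hz
  · have h0 := sub_ne_zero_of_notMem ha hz
    have e : ratio a' a z = 1 + (a - a') / (z - a) := by
      rw [ratio]; field_simp; ring
    have h1 : ‖(a - a') / (z - a)‖ < 1 := by
      rw [norm_div, div_lt_one (norm_pos_iff.2 h0), norm_sub_rev]
      exact hlt z hz
    have h2 := (abs_re_le_norm ((a - a') / (z - a))).trans_lt h1
    rw [e, add_re, one_re]
    linarith [(abs_lt.1 h2).1]

/-- The complement of a closed disc is connected. -/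
lemma isPreconnected_outside (R : ℝ) : IsPreconnected {z : ℂ | R < ‖z‖} := by
  rcases lt_or_ge R 0 with hR | hR
  · have : {z : ℂ | R < ‖z‖} = univ := eq_univ_of_forall fun z => hR.trans_le (norm_nonneg z)
    rw [this]
    exact isPreconnected_univ
  have : {z : ℂ | R < ‖z‖} =
      (fun p : ℝ × ℝ => (p.1 : ℂ) * exp ((p.2 : ℂ) * I)) '' (Ioi R ×ˢ univ) := by
    ext z
    constructor
    · intro hz
      exact ⟨(‖z‖, arg z), ⟨hz, mem_univ _⟩, norm_mul_exp_arg_mul_I z⟩
    · rintro ⟨⟨r, t⟩, ⟨hr, -⟩, rfl⟩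
      have hr' : R < r := hr
      simp only [mem_setOf_eq, norm_mul, norm_exp_ofReal_mul_I, mul_one, norm_real,
        Real.norm_eq_abs]
      exact hr'.trans_le (le_abs_self r)
  rw [this]
  exact (isPreconnected_Ioi.prod isPreconnected_univ).image _ (by fun_prop : Continuous _).continuousOn

variable {K : Set ℂ}

/-- The component of a point in the complement. -/
abbrev comp (K : Set ℂ) (a : ℂ) : Set ℂ := connectedComponentIn Kᶜ a

lemma comp_subset (a : ℂ) : comp K a ⊆ Kᶜ := connectedComponentIn_subset _ _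

lemma isOpen_comp (hK : IsClosed K) (a : ℂ) : IsOpen (comp K a) :=
  hK.isOpen_compl.connectedComponentIn

lemma mem_comp {a : ℂ} (ha : a ∉ K) : a ∈ comp K a := mem_connectedComponentIn ha

lemma comp_eq {a b : ℂ} (h : b ∈ comp K a) : comp K b = comp K a := (connectedComponentIn_eq h).symm

/-- The boundary of a component lies in the set. -/
lemma frontier_comp_subset (hK : IsClosed K) (a : ℂ) : frontier (comp K a) ⊆ K := by
  intro z hz
  by_contra hzK
  rw [(isOpen_comp hK a).frontier_eq] at hz
  obtain ⟨w, hw, hw'⟩ := mem_closure_iff.1 hz.1 _ (isOpen_comp hK z) (mem_comp hzK)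
  exact hz.2 (((comp_eq hw).symm.trans (comp_eq hw')) ▸ mem_comp hzK)

/-- An unbounded component contains the outside of every large disc. -/
lemma subset_comp_of_unbounded {R : ℝ} (hR : ∀ z ∈ K, ‖z‖ ≤ R) {a : ℂ} (ha : a ∉ K)
    (hun : ¬Bornology.IsBounded (comp K a)) : {z : ℂ | R < ‖z‖} ⊆ comp K a := by
  obtain ⟨w, hw, hwR⟩ : ∃ w ∈ comp K a, R < ‖w‖ := by
    by_contra hcon
    push Not at hcon
    exact hun (isBounded_iff_forall_norm_le.2 ⟨R, hcon⟩)
  rw [← comp_eq hw]
  exact (isPreconnected_outside R).subset_connectedComponentIn hwR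
    fun z (hz : R < ‖z‖) hzK => absurd (hR z hzK) (not_le.2 hz)

lemma unbounded_comp_of_large {R : ℝ} (hR : ∀ z ∈ K, ‖z‖ ≤ R) {a : ℂ} (ha : R < ‖a‖) :
    ¬Bornology.IsBounded (comp K a) := fun hb => by
  have hsub : {z : ℂ | R < ‖z‖} ⊆ comp K a := (isPreconnected_outside R).subset_connectedComponentIn
    ha fun z (hz : R < ‖z‖) hzK => absurd (hR z hzK) (not_le.2 hz)
  obtain ⟨C, hC⟩ := isBounded_iff_forall_norm_le.1 hb
  have hmem : ((|R| + |C| + 1 : ℝ) : ℂ) ∈ {z : ℂ | R < ‖z‖} := by
    show R < ‖((|R| + |C| + 1 : ℝ) : ℂ)‖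
    rw [norm_real, Real.norm_eq_abs, abs_of_pos (by positivity)]
    linarith [le_abs_self R, abs_nonneg C]
  have := hC _ (hsub hmem)
  rw [norm_real, Real.norm_eq_abs, abs_of_pos (by positivity)] at this
  linarith [le_abs_self C, abs_nonneg R]

/-- Two unbounded components are the same. -/
lemma comp_eq_of_unbounded (hK : IsCompact K) {a b : ℂ} (ha : a ∉ K) (hb : b ∉ K)
    (hua : ¬Bornology.IsBounded (comp K a)) (hub : ¬Bornology.IsBounded (comp K b)) :
    comp K a = comp K b := by
  obtain ⟨R, hR⟩ := hK.exists_bound_of_continuousOn (f := id) continuousOn_id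
  have hmem : ((|R| + 1 : ℝ) : ℂ) ∈ {z : ℂ | R < ‖z‖} := by
    show R < ‖((|R| + 1 : ℝ) : ℂ)‖
    rw [norm_real, Real.norm_eq_abs, abs_of_pos (by positivity)]
    linarith [le_abs_self R]
  rw [← comp_eq (subset_comp_of_unbounded hR ha hua hmem),
    ← comp_eq (subset_comp_of_unbounded hR hb hub hmem)]

/-- Points of one component: the ratio has a logarithm. -/
theorem hasLog_ratio_of_mem_comp (hK : IsCompact K) {a b : ℂ} (hb : b ∉ K) (h : a ∈ comp K b) :
    HasLog K (ratio a b) := by
  rcases K.eq_empty_or_nonempty with rfl | hne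
  · exact ⟨0, continuousOn_empty _, fun z hz => hz.elim⟩
  let S := comp K b
  have hS : IsPreconnected S := isPreconnected_connectedComponentIn
  have hSK : ∀ x ∈ S, x ∉ K := fun x hx => comp_subset b hx
  by_contra hcon
  have hstep : ∀ x ∈ S, ∀ y, ‖y - x‖ < infDist x K →
      (HasLog K (ratio x b) ↔ HasLog K (ratio y b)) := fun x hx y hy => by
    have hlt : ∀ z ∈ K, ‖y - x‖ < ‖z - x‖ := fun z hz => hy.trans_le (by
      simpa [dist_eq_norm, norm_sub_rev] using infDist_le_dist_of_mem (x := x) hz)
    have hyK : y ∉ K := fun hyK => lt_irrefl _ (hlt y hyK)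
    have h1 := hasLog_ratio_near (hSK x hx) hlt
    constructor
    · intro h2
      refine (h1.mul h2).congr fun z hz => ?_
      have := sub_ne_zero_of_notMem (hSK x hx) hz
      simp only [ratio]
      field_simp
    · intro h2
      refine (h1.inv.mul h2).congr fun z hz => ?_
      have := sub_ne_zero_of_notMem hyK hz
      have := sub_ne_zero_of_notMem (hSK x hx) hz
      simp only [ratio]
      field_simp
  have hopen : ∀ P : Prop → Prop, IsOpen {x | ∃ u ∈ S, P (HasLog K (ratio u b)) ∧
      ‖x - u‖ < infDist u K} := fun P => by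
    have : {x | ∃ u ∈ S, P (HasLog K (ratio u b)) ∧ ‖x - u‖ < infDist u K} =
        ⋃ u ∈ {u | u ∈ S ∧ P (HasLog K (ratio u b))}, ball u (infDist u K) := by
      ext x
      simp [dist_eq_norm, and_assoc]
    rw [this]
    exact isOpen_biUnion fun u _ => isOpen_ball
  have hpos : ∀ x ∈ S, ‖x - x‖ < infDist x K := fun x hx => by
    rw [sub_self, norm_zero]
    exact (hK.isClosed.notMem_iff_infDist_pos hne).1 (hSK x hx)
  have hbS : b ∈ S := mem_comp hb
  have hbb : HasLog K (ratio b b) := (hasLog_const one_ne_zero).congr fun z hz => by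
    rw [ratio, div_self (sub_ne_zero_of_notMem hb hz)]
  obtain ⟨x, hx, ⟨u, hu, hu1, hu2⟩, v, hv, hv1, hv2⟩ := hS _ _ (hopen id) (hopen Not)
    (fun x hx => (em (HasLog K (ratio x b))).imp (fun h => ⟨x, hx, h, hpos x hx⟩)
      fun h => ⟨x, hx, h, hpos x hx⟩)
    ⟨b, hbS, b, hbS, hbb, hpos b hbS⟩ ⟨a, h, a, h, hcon, hpos a h⟩
  exact hv1 ((hstep v hv x hv2).2 ((hstep u hu x hu2).1 hu1))

/-- A point in an unbounded component: `z - a` has a logarithm. -/
theorem hasLog_sub_of_unbounded (hK : IsCompact K) {a : ℂ} (ha : a ∉ K)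
    (hun : ¬Bornology.IsBounded (comp K a)) : HasLog K (fun z => z - a) := by
  obtain ⟨R, hR⟩ := hK.exists_bound_of_continuousOn (f := id) continuousOn_id
  set b : ℂ := ((|R| + 1 : ℝ) : ℂ) with hb
  have hbn : R < ‖b‖ := by
    rw [hb, norm_real, Real.norm_eq_abs, abs_of_pos (by positivity)]
    linarith [le_abs_self R]
  have hbK : b ∉ K := fun h => absurd (hR b h) (not_le.2 hbn)
  have h1 : HasLog K (ratio a b) := hasLog_ratio_of_mem_comp hK hbK (by
    rw [comp_eq (subset_comp_of_unbounded hR ha hun hbn)]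
    exact mem_comp ha)
  have h2 : HasLog K (fun z => z - b) := by
    have hre : ∀ z ∈ K, 0 < ((z - b) / (-1)).re := fun z hz => by
      have := (abs_re_le_norm z).trans (hR z hz)
      rw [hb, div_neg, div_one, neg_re, sub_re, ofReal_re]
      linarith [(abs_le.1 this).2, le_abs_self R]
    exact ((hasLog_of_re_pos (f := fun z => (z - b) / (-1)) (by fun_prop) hre).mul
      (hasLog_const (neg_ne_zero.2 one_ne_zero : (-1 : ℂ) ≠ 0))).congr fun z _ => by ring
  exact (h1.mul h2).congr fun z hz => by
    rw [ratio, div_mul_cancel₀ _ (sub_ne_zero_of_notMem hbK hz)]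

/-- No logarithm of a power of `z - a` times a function nonvanishing on the closed component. -/
theorem not_hasLog_of_bounded (hK : IsCompact K) {a : ℂ} (ha : a ∉ K)
    (hbd : Bornology.IsBounded (comp K a)) {k : ℤ} (hk : k ≠ 0) {ψ : ℂ → ℂ}
    (hψ : ContinuousOn ψ (closure (comp K a))) (hψ0 : ∀ z ∈ closure (comp K a), ψ z ≠ 0) :
    ¬HasLog K (fun z => (z - a) ^ k * ψ z) := by
  classical
  rintro ⟨g, hg, hge⟩
  obtain ⟨G, hG⟩ := ContinuousMap.exists_restrict_eq hK.isClosed
    (⟨K.restrict g, hg.restrict⟩ : C(K, ℂ))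
  have hGg : ∀ z ∈ K, G z = g z := fun z hz => DFunLike.congr_fun hG ⟨z, hz⟩
  let U := comp K a
  have hfr : frontier (closure U) ⊆ K := frontier_closure_subset.trans (frontier_comp_subset hK.isClosed a)
  have hout : ∀ z ∈ closure {z | ¬z ∈ closure U}, z ≠ a := fun z hz h0 => by
    have : z ∈ closure Uᶜ := closure_mono (fun w (hw : ¬w ∈ closure U) hw' => hw (subset_closure hw')) hz
    rw [(isOpen_comp hK.isClosed a).isClosed_compl.closure_eq] at this
    exact this (by rw [h0]; exact mem_comp ha)
  let F : ℂ → ℂ := fun z => if z ∈ closure U then exp (G z) / ψ z else (z - a) ^ k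
  have hF : Continuous F := by
    refine continuous_if (fun z hz => ?_) ?_ ?_
    · have hzc : z ∈ closure U := by
        have := frontier_subset_closure hz
        rwa [ofPred_mem_eq, closure_closure] at this
      have hzK : z ∈ K := hfr hz
      rw [hGg z hzK, hge z hzK, mul_div_assoc, div_self (hψ0 z hzc), mul_one]
    · rw [ofPred_mem_eq, closure_closure]
      exact G.continuous.cexp.continuousOn.div hψ hψ0
    · exact ContinuousOn.zpow₀ (continuousOn_id.sub continuousOn_const) k
        fun z hz => Or.inl (sub_ne_zero.2 (hout z hz))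
  have hF0 : ∀ z, F z ≠ 0 := fun z => by
    by_cases hz : z ∈ closure U
    · simp only [F, if_pos hz]
      exact div_ne_zero (exp_ne_zero _) (hψ0 z hz)
    · simp only [F, if_neg hz]
      exact zpow_ne_zero k (sub_ne_zero.2 fun h0 => hz (h0 ▸ subset_closure (mem_comp ha)))
  obtain ⟨C, hC⟩ := isBounded_iff_forall_norm_le.1 hbd.closure
  refine no_extension hF hF0 hk (a := a) (R := |C| + ‖a‖ + 1) (by positivity) fun z hz => ?_
  refine if_neg fun hz' => ?_
  have h1 := hC z hz'
  have h2 := norm_sub_le z a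
  linarith [le_abs_self C]

/-- A bounded component: `z - a` has no logarithm. -/
theorem not_hasLog_sub_of_bounded (hK : IsCompact K) {a : ℂ} (ha : a ∉ K)
    (hbd : Bornology.IsBounded (comp K a)) : ¬HasLog K (fun z => z - a) := fun h =>
  not_hasLog_of_bounded hK ha hbd one_ne_zero (ψ := fun _ => 1) continuousOn_const
    (fun _ _ => one_ne_zero) (h.congr fun z _ => by simp)

/-- `z - a` has a logarithm exactly when `a` is in the unbounded component. -/
theorem hasLog_sub_iff (hK : IsCompact K) {a : ℂ} (ha : a ∉ K) :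
    HasLog K (fun z => z - a) ↔ ¬Bornology.IsBounded (comp K a) :=
  ⟨fun h hbd => not_hasLog_sub_of_bounded hK ha hbd h, hasLog_sub_of_unbounded hK ha⟩

/-- **Eilenberg's criterion.** -/
theorem eilenberg (hK : IsCompact K) {a b : ℂ} (ha : a ∉ K) (hb : b ∉ K) :
    comp K a = comp K b ↔ HasLog K (ratio a b) := by
  refine ⟨fun h => hasLog_ratio_of_mem_comp hK hb (h ▸ mem_comp ha), fun h => ?_⟩
  by_contra hne
  have hdisj : ∀ x y : ℂ, comp K x ≠ comp K y → y ∉ K → y ∉ closure (comp K x) :=
    fun x y hxy hy hcl => by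
      obtain ⟨w, hw, hw'⟩ := mem_closure_iff.1 hcl _ (isOpen_comp hK.isClosed y) (mem_comp hy)
      exact hxy ((comp_eq hw').symm.trans (comp_eq hw))
  by_cases hba : Bornology.IsBounded (comp K a)
  · refine not_hasLog_of_bounded hK ha hba one_ne_zero (ψ := fun z => (z - b)⁻¹)
      ((continuousOn_id.sub continuousOn_const).inv₀ fun z hz => sub_ne_zero.2
        fun e => hdisj a b hne hb ((show z = b from e) ▸ hz))
      (fun z hz => inv_ne_zero (sub_ne_zero.2 fun e => hdisj a b hne hb (e ▸ hz)))
      (h.congr fun z _ => by simp [ratio, div_eq_mul_inv])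
  · by_cases hbb : Bornology.IsBounded (comp K b)
    · refine not_hasLog_of_bounded hK hb hbb one_ne_zero (ψ := fun z => (z - a)⁻¹)
        ((continuousOn_id.sub continuousOn_const).inv₀ fun z hz => sub_ne_zero.2
          fun e => hdisj b a (Ne.symm hne) ha ((show z = a from e) ▸ hz))
        (fun z hz => inv_ne_zero (sub_ne_zero.2 fun e => hdisj b a (Ne.symm hne) ha (e ▸ hz)))
        (h.inv.congr fun z _ => by simp [ratio, div_eq_mul_inv, mul_comm])
    · exact hne (comp_eq_of_unbounded hK ha hb hba hbb)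

/-- A compact set on which every nonvanishing continuous function has a logarithm does not separate
the plane. -/
theorem isPreconnected_compl_of_log (hK : IsCompact K)
    (hlog : ∀ f : ℂ → ℂ, ContinuousOn f K → (∀ z ∈ K, f z ≠ 0) → HasLog K f) :
    IsPreconnected Kᶜ := by
  refine isPreconnected_of_forall_pair fun a ha b hb =>
    ⟨comp K a, comp_subset a, mem_comp ha, ?_, isPreconnected_connectedComponentIn⟩
  rw [(eilenberg hK ha hb).2 (hlog _ ?_ fun z hz => ?_)]
  · exact mem_comp hb
  · exact (continuousOn_id.sub continuousOn_const).div (continuousOn_id.sub continuousOn_const)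
      fun z hz => sub_ne_zero_of_notMem hb hz
  · exact div_ne_zero (sub_ne_zero_of_notMem ha hz) (sub_ne_zero_of_notMem hb hz)

end FA.Jordan
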