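import Mathlib.Analysis.Complex.CoveringMap
import Mathlib.Analysis.Complex.Tietze
import Mathlib.Analysis.SpecialFunctions.Complex.Arg
import Mathlib.Analysis.Convex.Contractible
import Mathlib.Topology.Homotopy.Lifting
import Mathlib.Tactic

/-!
# Continuous logarithms

Existence on the line, on the plane and on intervals, and uniqueness on connected sets.
-/

set_option autoImplicit false

noncomputable section

namespace FA.Jordan

open Set Complex Filter Topology

/-- `f` has a continuous logarithm on `K`. -/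
def HasLog (K : Set ℂ) (f : ℂ → ℂ) : Prop :=
  ∃ g : ℂ → ℂ, ContinuousOn g K ∧ ∀ z ∈ K, exp (g z) = f z

lemma HasLog.congr {K : Set ℂ} {f f' : ℂ → ℂ} (h : HasLog K f) (he : ∀ z ∈ K, f z = f' z) :
    HasLog K f' := by
  obtain ⟨g, hg, hge⟩ := h
  exact ⟨g, hg, fun z hz => (hge z hz).trans (he z hz)⟩

lemma HasLog.mono {K K' : Set ℂ} {f : ℂ → ℂ} (h : HasLog K f) (hK : K' ⊆ K) : HasLog K' f := by
  obtain ⟨g, hg, hge⟩ := h
  exact ⟨g, hg.mono hK, fun z hz => hge z (hK hz)⟩

lemma HasLog.mul {K : Set ℂ} {f f' : ℂ → ℂ} (h : HasLog K f) (h' : HasLog K f') :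
    HasLog K (fun z => f z * f' z) := by
  obtain ⟨g, hg, hge⟩ := h
  obtain ⟨g', hg', hge'⟩ := h'
  exact ⟨g + g', hg.add hg', fun z hz => by rw [Pi.add_apply, exp_add, hge z hz, hge' z hz]⟩

lemma HasLog.inv {K : Set ℂ} {f : ℂ → ℂ} (h : HasLog K f) : HasLog K (fun z => (f z)⁻¹) := by
  obtain ⟨g, hg, hge⟩ := h
  exact ⟨-g, hg.neg, fun z hz => by rw [Pi.neg_apply, exp_neg, hge z hz]⟩

lemma hasLog_const {K : Set ℂ} {c : ℂ} (hc : c ≠ 0) : HasLog K (fun _ => c) :=
  ⟨fun _ => log c, continuousOn_const, fun _ _ => exp_log hc⟩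

/-- A nonvanishing continuous function on a simply connected locally path connected space has a
continuous logarithm. -/
theorem exists_log {A : Type*} [TopologicalSpace A] [SimplyConnectedSpace A]
    [LocallyPathConnectedSpace A] (f : A → ℂ) (hf : Continuous f) (h0 : ∀ a, f a ≠ 0) :
    ∃ F : A → ℂ, Continuous F ∧ ∀ a, exp (F a) = f a := by
  have : Nonempty A := inferInstance
  obtain ⟨a₀⟩ := this
  let f' : C(A, {z : ℂ // z ≠ 0}) := ⟨fun a => ⟨f a, h0 a⟩, hf.subtype_mk _⟩
  obtain ⟨F, ⟨-, hF⟩, -⟩ := isCoveringMap_exp.existsUnique_continuousMap_lifts f' a₀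
    (log (f a₀)) (Subtype.ext (exp_log (h0 a₀)))
  exact ⟨F, F.continuous, fun a => congrArg Subtype.val (congrFun hF a)⟩

/-- On an interval. -/
theorem exists_log_Icc {f : ℝ → ℂ} {a b : ℝ} (hab : a ≤ b) (hf : ContinuousOn f (Icc a b))
    (h0 : ∀ t ∈ Icc a b, f t ≠ 0) :
    ∃ L : ℝ → ℂ, ContinuousOn L (Icc a b) ∧ ∀ t ∈ Icc a b, exp (L t) = f t := by
  obtain ⟨F, hF, hFe⟩ := exists_log (fun t : ℝ => f (projIcc a b hab t))
    (hf.comp_continuous (continuous_subtype_val.comp continuous_projIcc) fun t =>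
      (projIcc a b hab t).2)
    fun t => h0 _ (projIcc a b hab t).2
  refine ⟨F, hF.continuousOn, fun t ht => ?_⟩
  rw [hFe, projIcc_of_mem hab ht]

/-- An integer-valued continuous real function on a connected set is constant. -/
lemma eq_of_int_valued {X : Type*} [TopologicalSpace X] {S : Set X} (hS : IsPreconnected S)
    {h : X → ℝ} (hc : ContinuousOn h S) (hZ : ∀ x ∈ S, ∃ n : ℤ, h x = n) {x y : X} (hx : x ∈ S)
    (hy : y ∈ S) : h x = h y := by
  by_contra hne
  have key : ∀ x ∈ S, ∀ y ∈ S, h x < h y → False := fun x hx y hy hlt => by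
    obtain ⟨m, hm⟩ := hZ x hx
    obtain ⟨n, hn⟩ := hZ y hy
    have hmn : m + 1 ≤ n := by
      rw [hm, hn, Int.cast_lt] at hlt
      omega
    have hmn' : (m : ℝ) + 1 ≤ n := by exact_mod_cast hmn
    obtain ⟨z, hz, hzv⟩ := hS.intermediate_value hx hy hc
      (show (m : ℝ) + 1 / 2 ∈ Icc (h x) (h y) from ⟨by rw [hm]; linarith, by rw [hn]; linarith⟩)
    obtain ⟨k, hk⟩ := hZ z hz
    rw [hk] at hzv
    have h1 : ((2 * k : ℤ) : ℝ) = ((2 * m + 1 : ℤ) : ℝ) := by push_cast; linarith
    have := Int.cast_injective h1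
    omega
  rcases lt_or_gt_of_ne hne with hlt | hlt
  · exact key x hx y hy hlt
  · exact key y hy x hx hlt

/-- A continuous logarithm of one on a connected set is constant. -/
lemma eq_of_exp_eq_one {X : Type*} [TopologicalSpace X] {S : Set X} (hS : IsPreconnected S)
    {g : X → ℂ} (hc : ContinuousOn g S) (he : ∀ x ∈ S, exp (g x) = 1) {x y : X} (hx : x ∈ S)
    (hy : y ∈ S) : g x = g y := by
  have h2 : (2 * Real.pi : ℝ) ≠ 0 := by positivity
  have hval : ∀ x ∈ S, ∃ n : ℤ, g x = n * (2 * Real.pi * I) := fun x hx =>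
    exp_eq_one_iff.1 (he x hx)
  have h := eq_of_int_valued hS (h := fun x => (g x).im / (2 * Real.pi))
    ((continuous_im.comp_continuousOn hc).div_const _) (fun x hx => by
      obtain ⟨n, hn⟩ := hval x hx
      exact ⟨n, by simp [hn]⟩) hx hy
  obtain ⟨m, hm⟩ := hval x hx
  obtain ⟨n, hn⟩ := hval y hy
  simp [hm, hn, h2] at h
  rw [hm, hn]
  congr 1
  exact_mod_cast h

/-- Two logarithms of the same function differ by a constant on a connected set. -/
lemma log_sub_eq {X : Type*} [TopologicalSpace X] {S : Set X} (hS : IsPreconnected S)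
    {g g' : X → ℂ} (hg : ContinuousOn g S) (hg' : ContinuousOn g' S)
    (he : ∀ x ∈ S, exp (g x) = exp (g' x)) {x y : X} (hx : x ∈ S) (hy : y ∈ S) :
    g x - g y = g' x - g' y := by
  have := eq_of_exp_eq_one hS (g := fun x => g x - g' x) (hg.sub hg')
    (fun z hz => by rw [exp_sub, he z hz, div_self (exp_ne_zero _)]) hx hy
  linear_combination this

/-- A power of the identity on a large circle has no nonvanishing extension to the plane. -/
theorem no_extension {F : ℂ → ℂ} (hF : Continuous F) (h0 : ∀ z, F z ≠ 0) {k : ℤ} (hk : k ≠ 0)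
    {a : ℂ} {R : ℝ} (hR : 0 < R) (hFk : ∀ z, ‖z - a‖ = R → F z = (z - a) ^ k) : False := by
  obtain ⟨G, hG, hGe⟩ := exists_log F hF h0
  let c : ℝ → ℂ := fun t => a + (R : ℂ) * exp (t * I)
  have hc : Continuous c := by fun_prop
  have hcn : ∀ t, ‖c t - a‖ = R := fun t => by
    simp [c, norm_exp_ofReal_mul_I, abs_of_pos hR]
  let g' : ℝ → ℂ := fun t => (k : ℂ) * log (R : ℂ) + (k : ℂ) * (t * I)
  have h := log_sub_eq (S := (univ : Set ℝ)) isPreconnected_univ (g := fun t => G (c t))
    (g' := g') (hG.comp hc).continuousOn (by fun_prop) (fun t _ => by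
      rw [hGe, hFk _ (hcn t)]
      simp only [g', c, add_sub_cancel_left]
      rw [exp_add, exp_int_mul, exp_int_mul, exp_log (by exact_mod_cast hR.ne'), mul_zpow])
    (mem_univ (0 : ℝ)) (mem_univ (2 * Real.pi))
  have e : c (2 * Real.pi) = c 0 := by
    simp [c, exp_two_pi_mul_I]
  simp only [e, sub_self, g'] at h
  simp [hk, Real.pi_ne_zero, I_ne_zero] at h

end FA.Jordan
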