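import Fermat.Agent.Jordan.Curve
import Mathlib.Combinatorics.SimpleGraph.Bipartite
import Mathlib.Analysis.Convex.Segment

/-!
# Drawings of graphs in the plane

Two chords of a loop with interleaved ends and no common point lie on different sides of it. Hence
neither the complete graph on five vertices nor the utility graph can be drawn without crossings.
-/

set_option autoImplicit false

noncomputable section

namespace FA.Jordan

open Set Complex Filter Topology Metric

/-- A drawing without crossings of a graph: every edge is an injective continuous arc between its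
ends, carrying no other vertex, and two edges meet only at vertices. -/
structure PlaneDrawing {V : Type*} (G : SimpleGraph V) where
  /-- The positions of the vertices. -/
  pos : V → ℂ
  pos_injective : Function.Injective pos
  /-- The edges. -/
  path : V → V → ℝ → ℂ
  continuousOn : ∀ u v, G.Adj u v → ContinuousOn (path u v) (Icc 0 1)
  injOn : ∀ u v, G.Adj u v → InjOn (path u v) (Icc 0 1)
  path_zero : ∀ u v, G.Adj u v → path u v 0 = pos u
  path_one : ∀ u v, G.Adj u v → path u v 1 = pos v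
  image_comm : ∀ u v, G.Adj u v → path u v '' Icc 0 1 = path v u '' Icc 0 1
  vertex : ∀ u v w, G.Adj u v → pos w ∈ path u v '' Icc 0 1 → w = u ∨ w = v
  no_crossing : ∀ u v u' v', G.Adj u v → G.Adj u' v' → s(u, v) ≠ s(u', v') →
    path u v '' Icc 0 1 ∩ path u' v' '' Icc 0 1 ⊆ range pos

lemma IsArc.subset_closure_interior {X : Set ℂ} {u v : ℂ} (h : IsArc X u v) :
    X ⊆ closure (X \ {u, v}) := by
  obtain ⟨γ, hc, hi, rfl, rfl, rfl⟩ := h
  have hsub : γ '' Ioo 0 1 ⊆ γ '' Icc 0 1 \ {γ 0, γ 1} := by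
    rintro _ ⟨t, ht, rfl⟩
    refine ⟨mem_image_of_mem γ (Ioo_subset_Icc_self ht), ?_⟩
    rintro (e | e)
    · exact ht.1.ne' (hi (Ioo_subset_Icc_self ht) (left_mem_Icc.2 zero_le_one) e)
    · exact ht.2.ne (hi (Ioo_subset_Icc_self ht) (right_mem_Icc.2 zero_le_one) e)
  refine Subset.trans ?_ (closure_mono hsub)
  rw [← closure_Ioo zero_ne_one] at hc ⊢
  exact hc.image_closure

/-- The wind numbers of the three loops of a theta curve add up. -/
lemma wind_theta {P Q R : Set ℂ} {u v : ℂ} (hP : IsArc P u v) (hQ : IsArc Q u v) (hR : IsArc R u v)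
    (hPQ : P ∩ Q = {u, v}) (hPR : P ∩ R = {u, v}) (hQR : Q ∩ R = {u, v}) {a : ℂ}
    (hP0 : a ∉ P) (hQ0 : a ∉ Q) (hR0 : a ∉ R) :
    (Split.mk Q R u v hQ hR rfl hQR).wind a =
      (Split.mk P R u v hP hR rfl hPR).wind a - (Split.mk P Q u v hP hQ rfl hPQ).wind a := by
  refine Split.deg_unique _ (nonVan_sub fun h => h.elim hQ0 hR0) ?_
  push_cast
  rw [sub_mul, Split.wind, Split.wind,
    ← Split.deg_spec _ (nonVan_sub fun h => h.elim hP0 hR0),
    ← Split.deg_spec _ (nonVan_sub fun h => h.elim hP0 hQ0)]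
  simp only [Split.turn]
  ring

lemma comp_eq_of_preconnected {K S : Set ℂ} (hS : IsPreconnected S) (hSK : S ⊆ Kᶜ) {a b : ℂ}
    (ha : a ∈ S) (hb : b ∈ S) : comp K a = comp K b :=
  (comp_eq (hS.subset_connectedComponentIn ha hSK hb)).symm

/-- Interleaved disjoint chords lie on different sides. -/
theorem chord_sides {P Q R T : Set ℂ} {u v q r x z : ℂ}
    (hP : IsArc P u v) (hQ : IsArc Q u v) (hR : IsArc R u v) (hT : IsArc T q r)
    (hPQ : P ∩ Q = {u, v}) (hPR : P ∩ R = {u, v}) (hQR : Q ∩ R = {u, v})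
    (hq : q ∈ Q) (hr : r ∈ R) (hTC : T ∩ (Q ∪ R) = {q, r}) (hTP : Disjoint T P)
    (hx : x ∈ P \ {u, v}) (hz : z ∈ T \ {q, r}) :
    ¬(Bornology.IsBounded (comp (Q ∪ R) x) ↔ Bornology.IsBounded (comp (Q ∪ R) z)) := by
  intro hiff
  have hC : IsLoop (Q ∪ R) := (Split.mk Q R u v hQ hR rfl hQR).isLoop
  have hxC : x ∉ Q ∪ R := by
    rintro (h | h)
    · exact hx.2 (hPQ.subset ⟨hx.1, h⟩)
    · exact hx.2 (hPR.subset ⟨hx.1, h⟩)
  have hzC : z ∉ Q ∪ R := fun h => hz.2 (hTC.subset ⟨hz.1, h⟩)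
  have hW : comp (Q ∪ R) x = comp (Q ∪ R) z := by
    by_cases hb : Bornology.IsBounded (comp (Q ∪ R) x)
    · exact hC.bounded_comp_eq hxC hzC hb (hiff.1 hb)
    · exact comp_eq_of_unbounded hC.isCompact hxC hzC hb fun h => hb (hiff.2 h)
  -- a point on the other side
  obtain ⟨y, hyC, hy⟩ : ∃ y ∉ Q ∪ R, comp (Q ∪ R) y ≠ comp (Q ∪ R) z := by
    by_cases hb : Bornology.IsBounded (comp (Q ∪ R) z)
    · obtain ⟨y, hyC, hyb⟩ := hC.exists_unbounded
      exact ⟨y, hyC, fun e => hyb (e ▸ hb)⟩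
    · obtain ⟨y, hyC, hyb⟩ := hC.exists_bounded
      exact ⟨y, hyC, fun e => hb (e ▸ hyb)⟩
  have hyP : ∀ w ∈ comp (Q ∪ R) y, w ∉ P := fun w hw hwP => by
    have hwC : w ∉ Q ∪ R := comp_subset y hw
    have hw' : w ∈ P \ {u, v} := by
      refine ⟨hwP, ?_⟩
      rintro (e | e) <;> rw [e] at hwC
      · exact hwC (Or.inl hQ.left_mem)
      · exact hwC (Or.inl hQ.right_mem)
    have h1 := comp_eq_of_preconnected (K := Q ∪ R) hP.interior_preconnected (fun s hs hsC =>
      hs.2 (hsC.elim (fun h => hPQ.subset ⟨hs.1, h⟩) fun h => hPR.subset ⟨hs.1, h⟩)) hw' hx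
    exact hy (((comp_eq hw).symm.trans h1).trans hW)
  have hne : ∀ s ∈ T, s ∉ P := fun s hs => disjoint_left.1 hTP hs
  have hqR : q ∉ R := fun h => hne q hT.left_mem (by
    rcases hQR.subset ⟨hq, h⟩ with e | e
    · exact e ▸ hP.left_mem
    · rw [mem_singleton_iff] at e; exact e ▸ hP.right_mem)
  have hrQ : r ∉ Q := fun h => hne r hT.right_mem (by
    rcases hQR.subset ⟨h, hr⟩ with e | e
    · exact e ▸ hP.left_mem
    · rw [mem_singleton_iff] at e; exact e ▸ hP.right_mem)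
  have hTclos : ∀ s ∈ T, IsPreconnected (T \ {q, r} ∪ {s}) := fun s hs =>
    hT.interior_preconnected.subset_closure subset_union_left
      (union_subset subset_closure (singleton_subset_iff.2 (hT.subset_closure_interior hs)))
  have hWclos : ∀ s ∈ Q ∪ R, IsPreconnected (comp (Q ∪ R) y ∪ {s}) := fun s hs =>
    isPreconnected_connectedComponentIn.subset_closure subset_union_left
      (union_subset subset_closure (singleton_subset_iff.2
        (frontier_subset_closure ((hC.frontier_comp hyC).symm.subset hs))))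
  -- one side of the theta
  have key : ∀ (R' : Set ℂ), R' ⊆ Q ∪ R → ∀ s ∈ T, s ∈ Q ∪ R → s ∉ R' →
      comp (P ∪ R') z = comp (P ∪ R') y := fun R' hR' s hsT hsC hsR => by
    refine comp_eq_of_preconnected ((hTclos s hsT).union s (Or.inr rfl) (Or.inr rfl)
      (hWclos s hsC)) ?_ (Or.inl (Or.inl hz)) (Or.inr (Or.inl (mem_comp hyC)))
    rintro w ((hw | hw) | (hw | hw)) hwK
    · exact hwK.elim (hne w hw.1) fun h => hw.2 (hTC.subset ⟨hw.1, hR' h⟩)
    · rw [mem_singleton_iff] at hw; subst hw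
      exact hwK.elim (hne w hsT) hsR
    · exact hwK.elim (hyP w hw) fun h => comp_subset y hw (hR' h)
    · rw [mem_singleton_iff] at hw; subst hw
      exact hwK.elim (hne w hsT) hsR
  have h1 := key R subset_union_right q hT.left_mem (Or.inl hq) hqR
  have h2 := key Q subset_union_left r hT.right_mem (Or.inr hr) hrQ
  have hzP : z ∉ P := hne z hz.1
  have hyP' : y ∉ P := hyP y (mem_comp hyC)
  let S := Split.mk Q R u v hQ hR rfl hQR
  have hwind : S.wind z = S.wind y := by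
    rw [wind_theta hP hQ hR hPQ hPR hQR hzP (fun h => hzC (Or.inl h)) fun h => hzC (Or.inr h),
      wind_theta hP hQ hR hPQ hPR hQR hyP' (fun h => hyC (Or.inl h)) fun h => hyC (Or.inr h),
      (Split.mk P R u v hP hR rfl hPR).wind_eq_of_comp
        (fun h => h.elim hzP fun h => hzC (Or.inr h)) (fun h => h.elim hyP' fun h => hyC (Or.inr h)) h1,
      (Split.mk P Q u v hP hQ rfl hPQ).wind_eq_of_comp
        (fun h => h.elim hzP fun h => hzC (Or.inl h)) (fun h => h.elim hyP' fun h => hyC (Or.inl h)) h2]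
  by_cases hb : Bornology.IsBounded (comp (Q ∪ R) y)
  · have hne0 : S.wind y ≠ 0 := fun h => (S.wind_eq_zero_iff hyC).1 h hb
    refine hy (hC.bounded_comp_eq hyC hzC hb ?_)
    by_contra hbz
    exact hne0 (hwind.symm.trans ((S.wind_eq_zero_iff hzC).2 hbz))
  · refine hy (comp_eq_of_unbounded hC.isCompact hyC hzC hb fun hbz => ?_)
    exact (S.wind_eq_zero_iff hzC).1 (hwind.trans ((S.wind_eq_zero_iff hyC).2 hb)) hbz

namespace PlaneDrawing

variable {V : Type*} {G : SimpleGraph V} (D : PlaneDrawing G)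

/-- The point set of an edge. -/
def seg (u v : V) : Set ℂ := D.path u v '' Icc 0 1

lemma isArc_seg {u v : V} (h : G.Adj u v) : IsArc (D.seg u v) (D.pos u) (D.pos v) :=
  ⟨D.path u v, D.continuousOn u v h, D.injOn u v h, D.path_zero u v h, D.path_one u v h, rfl⟩

lemma seg_comm {u v : V} (h : G.Adj u v) : D.seg u v = D.seg v u := D.image_comm u v h

lemma pos_mem {u v : V} (h : G.Adj u v) : D.pos u ∈ D.seg u v ∧ D.pos v ∈ D.seg u v :=
  ⟨(D.isArc_seg h).left_mem, (D.isArc_seg h).right_mem⟩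

lemma meet {n : ℕ} {w : Fin n → V} (hw : Function.Injective w) {i j k l : Fin n}
    (hij : G.Adj (w i) (w j)) (hkl : G.Adj (w k) (w l)) (hne : s(i, j) ≠ s(k, l)) {z : ℂ}
    (h1 : z ∈ D.seg (w i) (w j)) (h2 : z ∈ D.seg (w k) (w l)) :
    ∃ m, z = D.pos (w m) ∧ (m = i ∨ m = j) ∧ (m = k ∨ m = l) := by
  have hne' : s(w i, w j) ≠ s(w k, w l) := fun e =>
    hne ((Sym2.map.injective hw) (by simpa using e))
  obtain ⟨a, rfl⟩ := D.no_crossing _ _ _ _ hij hkl hne' ⟨h1, h2⟩
  have e1 := D.vertex _ _ a hij h1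
  have e2 := D.vertex _ _ a hkl h2
  obtain ⟨m, rfl⟩ : ∃ m, w m = a := by
    rcases e1 with rfl | rfl
    · exact ⟨i, rfl⟩
    · exact ⟨j, rfl⟩
  exact ⟨m, rfl, e1.imp (fun e => hw e) (fun e => hw e), e2.imp (fun e => hw e) (fun e => hw e)⟩

lemma pos_mem_chain {n : ℕ} {w : Fin n → V} (hw : Function.Injective w) {i j m : Fin n}
    (hij : G.Adj (w i) (w j)) : D.pos (w m) ∈ D.seg (w i) (w j) ↔ m = i ∨ m = j :=
  ⟨fun h => (D.vertex _ _ _ hij h).imp (fun e => hw e) (fun e => hw e), fun h => by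
    rcases h with rfl | rfl
    · exact (D.pos_mem hij).1
    · exact (D.pos_mem hij).2⟩

lemma inter_adjacent {n : ℕ} {w : Fin n → V} (hw : Function.Injective w) {i j k : Fin n}
    (hij : G.Adj (w i) (w j)) (hjk : G.Adj (w j) (w k)) (hik : i ≠ k) :
    D.seg (w i) (w j) ∩ D.seg (w j) (w k) = {D.pos (w j)} := by
  refine Subset.antisymm (fun z ⟨h1, h2⟩ => ?_)
    (singleton_subset_iff.2 ⟨(D.pos_mem hij).2, (D.pos_mem hjk).1⟩)
  obtain ⟨m, rfl, h3, h4⟩ := D.meet hw hij hjk (by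
    simp [hik]
    exact fun e => absurd (congrArg w e) hij.ne) h1 h2
  have : m = j := by
    rcases h3 with rfl | rfl
    · rcases h4 with h | h
      · exact h
      · exact absurd h hik
    · rfl
  rw [this]
  rfl

/-- A path of two edges is an arc. -/
lemma chain_two {n : ℕ} {w : Fin n → V} (hw : Function.Injective w) {i j k : Fin n}
    (hij : G.Adj (w i) (w j)) (hjk : G.Adj (w j) (w k)) (hik : i ≠ k) :
    IsArc (D.seg (w i) (w j) ∪ D.seg (w j) (w k)) (D.pos (w i)) (D.pos (w k)) :=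
  (D.isArc_seg hij).trans (D.isArc_seg hjk) (D.inter_adjacent hw hij hjk hik)

/-- A path of three edges is an arc. -/
lemma chain_three {n : ℕ} {w : Fin n → V} (hw : Function.Injective w) {i j k l : Fin n}
    (hij : G.Adj (w i) (w j)) (hjk : G.Adj (w j) (w k)) (hkl : G.Adj (w k) (w l))
    (hik : i ≠ k) (hjl : j ≠ l) (hil : i ≠ l) :
    IsArc (D.seg (w i) (w j) ∪ D.seg (w j) (w k) ∪ D.seg (w k) (w l)) (D.pos (w i))
      (D.pos (w l)) := by
  refine (D.chain_two hw hij hjk hik).trans (D.isArc_seg hkl) ?_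
  rw [union_inter_distrib_right, D.inter_adjacent hw hjk hkl hjl]
  refine Subset.antisymm (union_subset (fun z ⟨h1, h2⟩ => ?_) Subset.rfl) subset_union_right
  have hjk' : j ≠ k := fun e => hjk.ne (congrArg w e)
  obtain ⟨m, rfl, h3, h4⟩ := D.meet hw hij hkl (by
    simp only [ne_eq, Sym2.eq_iff, not_or, not_and]
    exact ⟨fun e => absurd e hik, fun e => absurd e hil⟩) h1 h2
  rcases h3 with rfl | rfl <;> rcases h4 with h | h
  · exact absurd h hik
  · exact absurd h hil
  · exact absurd h hjk'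
  · exact absurd h hjl

/-- On which side of a point set an edge runs. -/
def Inside (C : Set ℂ) (u v : V) : Prop :=
  ∃ z ∈ D.seg u v \ {D.pos u, D.pos v}, Bornology.IsBounded (comp C z)

lemma inside_iff {C : Set ℂ} {u v : V} (h : G.Adj u v)
    (hC : D.seg u v ∩ C ⊆ {D.pos u, D.pos v}) {z : ℂ} (hz : z ∈ D.seg u v \ {D.pos u, D.pos v}) :
    D.Inside C u v ↔ Bornology.IsBounded (comp C z) := by
  refine ⟨fun ⟨x, hx, hb⟩ => ?_, fun hb => ⟨z, hz, hb⟩⟩
  rwa [comp_eq_of_preconnected (K := C) (D.isArc_seg h).interior_preconnected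
    (fun s hs hsC => hs.2 (hC ⟨hs.1, hsC⟩)) hz hx]

lemma inside_comm {C : Set ℂ} {u v : V} (h : G.Adj u v) : D.Inside C u v ↔ D.Inside C v u := by
  rw [Inside, Inside, D.seg_comm h, pair_comm]

/-- The hexagon through `w`. -/
def hexagon (w : Fin 6 → V) : Set ℂ :=
  (D.seg (w 0) (w 1) ∪ D.seg (w 1) (w 2) ∪ D.seg (w 2) (w 3)) ∪
    (D.seg (w 0) (w 5) ∪ D.seg (w 5) (w 4) ∪ D.seg (w 4) (w 3))

/-- The pentagon through `w`. -/
def pentagon (w : Fin 5 → V) : Set ℂ :=
  (D.seg (w 0) (w 1) ∪ D.seg (w 1) (w 2)) ∪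
    (D.seg (w 0) (w 4) ∪ D.seg (w 4) (w 3) ∪ D.seg (w 3) (w 2))

/-- Crossing chords of a hexagon. -/
theorem hexagon_sides {w : Fin 6 → V} (hw : Function.Injective w) (e01 : G.Adj (w 0) (w 1))
    (e12 : G.Adj (w 1) (w 2)) (e23 : G.Adj (w 2) (w 3)) (e05 : G.Adj (w 0) (w 5))
    (e54 : G.Adj (w 5) (w 4)) (e43 : G.Adj (w 4) (w 3)) (e03 : G.Adj (w 0) (w 3))
    (e14 : G.Adj (w 1) (w 4)) :
    ¬(D.Inside (D.hexagon w) (w 0) (w 3) ↔ D.Inside (D.hexagon w) (w 1) (w 4)) := by
  have hQ := D.chain_three hw e01 e12 e23 (by decide) (by decide) (by decide)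
  have hR := D.chain_three hw e05 e54 e43 (by decide) (by decide) (by decide)
  have h03 : D.seg (w 0) (w 3) ∩ D.hexagon w ⊆ {D.pos (w 0), D.pos (w 3)} := by
    rintro z ⟨h, ((h' | h') | h') | ((h' | h') | h')⟩
    all_goals
      obtain ⟨m, rfl, h1, h2⟩ := D.meet hw e03 (by assumption) (by decide) h h'
      rcases h1 with rfl | rfl <;> simp_all
  have h14 : D.seg (w 1) (w 4) ∩ D.hexagon w ⊆ {D.pos (w 1), D.pos (w 4)} := by
    rintro z ⟨h, ((h' | h') | h') | ((h' | h') | h')⟩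
    all_goals
      obtain ⟨m, rfl, h1, h2⟩ := D.meet hw e14 (by assumption) (by decide) h h'
      rcases h1 with rfl | rfl <;> simp_all
  obtain ⟨x, hx⟩ := (D.isArc_seg e03).interior_nonempty
  obtain ⟨z, hz⟩ := (D.isArc_seg e14).interior_nonempty
  rw [D.inside_iff e03 h03 hx, D.inside_iff e14 h14 hz]
  refine chord_sides (D.isArc_seg e03) hQ hR (D.isArc_seg e14) ?_ ?_ ?_ ?_ ?_ ?_ ?_ hx hz
  · refine Subset.antisymm (fun z h => h03 ⟨h.1, Or.inl h.2⟩) ?_
    rintro z (rfl | rfl)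
    · exact ⟨(D.pos_mem e03).1, Or.inl (Or.inl (D.pos_mem e01).1)⟩
    · exact ⟨(D.pos_mem e03).2, Or.inr (D.pos_mem e23).2⟩
  · refine Subset.antisymm (fun z h => h03 ⟨h.1, Or.inr h.2⟩) ?_
    rintro z (rfl | rfl)
    · exact ⟨(D.pos_mem e03).1, Or.inl (Or.inl (D.pos_mem e05).1)⟩
    · exact ⟨(D.pos_mem e03).2, Or.inr (D.pos_mem e43).2⟩
  · refine Subset.antisymm ?_ ?_
    · rintro z ⟨(h | h) | h, (h' | h') | h'⟩
      all_goals
        obtain ⟨m, rfl, h1, h2⟩ := D.meet hw (by assumption) (by assumption) (by decide) h h'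
        rcases h1 with rfl | rfl <;> simp_all
    · rintro z (rfl | rfl)
      · exact ⟨Or.inl (Or.inl (D.pos_mem e01).1), Or.inl (Or.inl (D.pos_mem e05).1)⟩
      · exact ⟨Or.inr (D.pos_mem e23).2, Or.inr (D.pos_mem e43).2⟩
  · exact Or.inl (Or.inl (D.pos_mem e01).2)
  · exact Or.inl (Or.inr (D.pos_mem e54).2)
  · refine Subset.antisymm h14 ?_
    rintro z (rfl | rfl)
    · exact ⟨(D.pos_mem e14).1, Or.inl (Or.inl (Or.inl (D.pos_mem e01).2))⟩
    · exact ⟨(D.pos_mem e14).2, Or.inr (Or.inl (Or.inr (D.pos_mem e54).2))⟩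
  · refine disjoint_left.2 fun z h h' => ?_
    obtain ⟨m, rfl, h1, h2⟩ := D.meet hw e14 e03 (by decide) h h'
    rcases h1 with rfl | rfl <;> simp_all

/-- Crossing chords of a pentagon. -/
theorem pentagon_sides {w : Fin 5 → V} (hw : Function.Injective w) (e01 : G.Adj (w 0) (w 1))
    (e12 : G.Adj (w 1) (w 2)) (e04 : G.Adj (w 0) (w 4)) (e43 : G.Adj (w 4) (w 3))
    (e32 : G.Adj (w 3) (w 2)) (e02 : G.Adj (w 0) (w 2)) (e13 : G.Adj (w 1) (w 3)) :
    ¬(D.Inside (D.pentagon w) (w 0) (w 2) ↔ D.Inside (D.pentagon w) (w 1) (w 3)) := by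
  have hQ := D.chain_two hw e01 e12 (by decide)
  have hR := D.chain_three hw e04 e43 e32 (by decide) (by decide) (by decide)
  have h02 : D.seg (w 0) (w 2) ∩ D.pentagon w ⊆ {D.pos (w 0), D.pos (w 2)} := by
    rintro z ⟨h, (h' | h') | ((h' | h') | h')⟩
    all_goals
      obtain ⟨m, rfl, h1, h2⟩ := D.meet hw e02 (by assumption) (by decide) h h'
      rcases h1 with rfl | rfl <;> simp_all
  have h13 : D.seg (w 1) (w 3) ∩ D.pentagon w ⊆ {D.pos (w 1), D.pos (w 3)} := by
    rintro z ⟨h, (h' | h') | ((h' | h') | h')⟩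
    all_goals
      obtain ⟨m, rfl, h1, h2⟩ := D.meet hw e13 (by assumption) (by decide) h h'
      rcases h1 with rfl | rfl <;> simp_all
  obtain ⟨x, hx⟩ := (D.isArc_seg e02).interior_nonempty
  obtain ⟨z, hz⟩ := (D.isArc_seg e13).interior_nonempty
  rw [D.inside_iff e02 h02 hx, D.inside_iff e13 h13 hz]
  refine chord_sides (D.isArc_seg e02) hQ hR (D.isArc_seg e13) ?_ ?_ ?_ ?_ ?_ ?_ ?_ hx hz
  · refine Subset.antisymm (fun z h => h02 ⟨h.1, Or.inl h.2⟩) ?_
    rintro z (rfl | rfl)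
    · exact ⟨(D.pos_mem e02).1, Or.inl (D.pos_mem e01).1⟩
    · exact ⟨(D.pos_mem e02).2, Or.inr (D.pos_mem e12).2⟩
  · refine Subset.antisymm (fun z h => h02 ⟨h.1, Or.inr h.2⟩) ?_
    rintro z (rfl | rfl)
    · exact ⟨(D.pos_mem e02).1, Or.inl (Or.inl (D.pos_mem e04).1)⟩
    · exact ⟨(D.pos_mem e02).2, Or.inr (D.pos_mem e32).2⟩
  · refine Subset.antisymm ?_ ?_
    · rintro z ⟨h | h, (h' | h') | h'⟩
      all_goals
        obtain ⟨m, rfl, h1, h2⟩ := D.meet hw (by assumption) (by assumption) (by decide) h h'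
        rcases h1 with rfl | rfl <;> simp_all
    · rintro z (rfl | rfl)
      · exact ⟨Or.inl (D.pos_mem e01).1, Or.inl (Or.inl (D.pos_mem e04).1)⟩
      · exact ⟨Or.inr (D.pos_mem e12).2, Or.inr (D.pos_mem e32).2⟩
  · exact Or.inl (D.pos_mem e01).2
  · exact Or.inl (Or.inr (D.pos_mem e43).2)
  · refine Subset.antisymm h13 ?_
    rintro z (rfl | rfl)
    · exact ⟨(D.pos_mem e13).1, Or.inl (Or.inl (D.pos_mem e01).2)⟩
    · exact ⟨(D.pos_mem e13).2, Or.inr (Or.inl (Or.inr (D.pos_mem e43).2))⟩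
  · refine disjoint_left.2 fun z h h' => ?_
    obtain ⟨m, rfl, h1, h2⟩ := D.meet hw e13 e02 (by decide) h h'
    rcases h1 with rfl | rfl <;> simp_all

end PlaneDrawing

/-- The utility graph has no drawing without crossings. -/
theorem isEmpty_drawing_K33 :
    IsEmpty (PlaneDrawing (completeBipartiteGraph (Fin 3) (Fin 3))) := by
  refine ⟨fun D => ?_⟩
  let w : Fin 6 → Fin 3 ⊕ Fin 3 := ![.inl 0, .inr 0, .inl 1, .inr 1, .inl 2, .inr 2]
  have hw : Function.Injective w := by decide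
  -- the hexagon with any starting point
  have hrot : ∀ s : Fin 6, D.hexagon (fun i => w (i + s)) = D.hexagon w := fun s => by
    have adj : ∀ i : Fin 6, (completeBipartiteGraph (Fin 3) (Fin 3)).Adj (w i) (w (i + 1)) := by
      intro i; fin_cases i <;> simp [w]
    have hc := fun i => D.seg_comm (adj i)
    have h0 := hc 0; have h1 := hc 1; have h2 := hc 2; have h3 := hc 3; have h4 := hc 4
    have h5 := hc 5
    simp only [PlaneDrawing.hexagon]
    fin_cases s <;> simp [h0, h1, h2, h3, h4, h5, w] at * <;>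
      (ext; simp only [mem_union, h0, h1, h2, h3, h4, h5]; tauto)
  have adj : ∀ i j : Fin 6, (i.val + j.val) % 2 = 1 →
      (completeBipartiteGraph (Fin 3) (Fin 3)).Adj (w i) (w j) := by
    intro i j; fin_cases i <;> fin_cases j <;> simp [w]
  have key : ∀ s : Fin 6,
      ¬(D.Inside (D.hexagon w) (w s) (w (3 + s)) ↔ D.Inside (D.hexagon w) (w (1 + s)) (w (4 + s))) :=
    fun s => by
      have hinj : Function.Injective fun i => w (i + s) := hw.comp (add_left_injective s)
      have := D.hexagon_sides hinj (adj _ _ ?_) (adj _ _ ?_) (adj _ _ ?_) (adj _ _ ?_) (adj _ _ ?_)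
        (adj _ _ ?_) (adj _ _ ?_) (adj _ _ ?_)
      · simpa only [hrot s, zero_add] using this
      all_goals revert s
      all_goals decide
  have h0 := key 0
  have h1 := key 1
  have h2 := key 2
  have hc := D.inside_comm (C := D.hexagon w) (adj 0 3 (by decide))
  simp only [show (3 : Fin 6) + 0 = 3 from rfl, show (1 : Fin 6) + 0 = 1 from rfl,
    show (4 : Fin 6) + 0 = 4 from rfl, show (3 : Fin 6) + 1 = 4 from rfl,
    show (1 : Fin 6) + 1 = 2 from rfl, show (4 : Fin 6) + 1 = 5 from rfl,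
    show (3 : Fin 6) + 2 = 5 from rfl, show (1 : Fin 6) + 2 = 3 from rfl,
    show (4 : Fin 6) + 2 = 0 from rfl] at h0 h1 h2
  tauto

/-- The complete graph on five vertices has no drawing without crossings. -/
theorem isEmpty_drawing_K5 : IsEmpty (PlaneDrawing (⊤ : SimpleGraph (Fin 5))) := by
  refine ⟨fun D => ?_⟩
  have adj : ∀ i j : Fin 5, i ≠ j → (⊤ : SimpleGraph (Fin 5)).Adj i j := fun i j h => h
  have hrot : ∀ s : Fin 5, D.pentagon (fun i => i + s) = D.pentagon id := fun s => by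
    have h0 := D.seg_comm (adj 0 1 (by decide)); have h1 := D.seg_comm (adj 1 2 (by decide))
    have h2 := D.seg_comm (adj 2 3 (by decide)); have h3 := D.seg_comm (adj 3 4 (by decide))
    have h4 := D.seg_comm (adj 4 0 (by decide))
    simp only [PlaneDrawing.pentagon, id]
    fin_cases s <;> simp at * <;> (ext; simp only [mem_union, h0, h1, h2, h3, h4]; tauto)
  have key : ∀ s : Fin 5,
      ¬(D.Inside (D.pentagon id) s (2 + s) ↔ D.Inside (D.pentagon id) (1 + s) (3 + s)) :=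
    fun s => by
      have := D.pentagon_sides (w := fun i => i + s) (add_left_injective s) (adj _ _ ?_)
        (adj _ _ ?_) (adj _ _ ?_) (adj _ _ ?_) (adj _ _ ?_) (adj _ _ ?_) (adj _ _ ?_)
      · simpa only [hrot s, zero_add] using this
      all_goals revert s
      all_goals decide
  have h0 := key 0
  have h1 := key 1
  have h2 := key 2
  have h3 := key 3
  have h4 := key 4
  have hc0 := D.inside_comm (C := D.pentagon id) (adj 0 3 (by decide))
  have hc1 := D.inside_comm (C := D.pentagon id) (adj 1 4 (by decide))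
  simp only [show (2 : Fin 5) + 0 = 2 from rfl, show (1 : Fin 5) + 0 = 1 from rfl,
    show (3 : Fin 5) + 0 = 3 from rfl, show (2 : Fin 5) + 1 = 3 from rfl,
    show (1 : Fin 5) + 1 = 2 from rfl, show (3 : Fin 5) + 1 = 4 from rfl,
    show (2 : Fin 5) + 2 = 4 from rfl, show (1 : Fin 5) + 2 = 3 from rfl,
    show (3 : Fin 5) + 2 = 0 from rfl, show (2 : Fin 5) + 3 = 0 from rfl,
    show (1 : Fin 5) + 3 = 4 from rfl, show (3 : Fin 5) + 3 = 1 from rfl,
    show (2 : Fin 5) + 4 = 1 from rfl, show (1 : Fin 5) + 4 = 0 from rfl,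
    show (3 : Fin 5) + 4 = 2 from rfl] at h0 h1 h2 h3 h4
  tauto

end FA.Jordan
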